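import Mathlib.NumberTheory.ModularForms.QExpansion
import Mathlib.Analysis.Analytic.Order
import Mathlib.RingTheory.LaurentSeries
import Mathlib.Analysis.Complex.UpperHalfPlane.FunctionsBoundedAtInfty

/-!
# Taylor series at a point of the upper half plane

Taylor series of holomorphic functions on the upper half plane at a point, as a ring map
(`germAt`), and the effect of a local symmetry on the order of vanishing
(`deriv_pow_order_eq_one`).
-/

set_option autoImplicit false

noncomputable section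

open UpperHalfPlane Filter Topology
open scoped Manifold

namespace Fermat.Agent.ModCurveGenus

/-- Taylor series of `g` at `z₀`. -/
def taylorAt (g : ℂ → ℂ) (z₀ : ℂ) : PowerSeries ℂ :=
  PowerSeries.mk fun n => (n.factorial : ℂ)⁻¹ * iteratedDeriv n g z₀

/-- The Taylor coefficients. -/
theorem taylorAt_coeff (g : ℂ → ℂ) (z₀ : ℂ) (n : ℕ) :
    (taylorAt g z₀).coeff n = (n.factorial : ℂ)⁻¹ * iteratedDeriv n g z₀ := by
  simp [taylorAt]

theorem taylorAt_add {f g : ℂ → ℂ} {z₀ : ℂ} (hf : AnalyticAt ℂ f z₀) (hg : AnalyticAt ℂ g z₀) :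
    taylorAt (f + g) z₀ = taylorAt f z₀ + taylorAt g z₀ := by
  ext n
  simp [taylorAt_coeff, iteratedDeriv_add hf.contDiffAt hg.contDiffAt, mul_add]

theorem taylorAt_mul {f g : ℂ → ℂ} {z₀ : ℂ} (hf : AnalyticAt ℂ f z₀) (hg : AnalyticAt ℂ g z₀) :
    taylorAt (f * g) z₀ = taylorAt f z₀ * taylorAt g z₀ := by
  ext n
  simp only [taylorAt_coeff, iteratedDeriv_mul hf.contDiffAt hg.contDiffAt, Finset.mul_sum,
    PowerSeries.coeff_mul, Finset.Nat.sum_antidiagonal_eq_sum_range_succ_mk, Nat.succ_eq_add_one]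
  refine Finset.sum_congr rfl fun i hi ↦ ?_
  rw [Nat.cast_choose _ (by grind)]
  field_simp [Nat.factorial_ne_zero]

theorem taylorAt_const (c z₀ : ℂ) : taylorAt (fun _ => c) z₀ = PowerSeries.C c := by
  ext n
  rw [taylorAt_coeff, iteratedDeriv_const, PowerSeries.coeff_C]
  split_ifs with h <;> simp [h]

/-- The order of the Taylor series is the order of vanishing. -/
theorem order_taylorAt {g : ℂ → ℂ} {z₀ : ℂ} (hg : AnalyticAt ℂ g z₀) {n : ℕ}
    (hn : analyticOrderAt g z₀ = n) :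
    (HahnSeries.ofPowerSeries ℤ ℂ (taylorAt g z₀)).order = n := by
  have hzero : ∀ i < n, iteratedDeriv i g z₀ = 0 :=
    (natCast_le_analyticOrderAt_iff_iteratedDeriv_eq_zero hg).mp hn.ge
  have hne : iteratedDeriv n g z₀ ≠ 0 := by
    intro h
    have : ((n + 1 : ℕ) : ℕ∞) ≤ analyticOrderAt g z₀ := by
      rw [natCast_le_analyticOrderAt_iff_iteratedDeriv_eq_zero hg]
      intro i hi
      rcases Nat.lt_succ_iff_lt_or_eq.mp hi with h' | rfl
      exacts [hzero i h', h]
    rw [hn, ENat.natCast_le_natCast] at this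
    omega
  have hc : (HahnSeries.ofPowerSeries ℤ ℂ (taylorAt g z₀)).coeff (n : ℤ) ≠ 0 := by
    rw [HahnSeries.ofPowerSeries_apply_coeff, taylorAt_coeff]
    exact mul_ne_zero (inv_ne_zero (Nat.cast_ne_zero.mpr n.factorial_ne_zero)) hne
  refine le_antisymm (HahnSeries.order_le_of_coeff_ne_zero hc) ?_
  by_contra hlt
  rw [not_le] at hlt
  have h0 : HahnSeries.ofPowerSeries ℤ ℂ (taylorAt g z₀) ≠ 0 := fun h0 => hc (by simp [h0])
  have hl : (HahnSeries.ofPowerSeries ℤ ℂ (taylorAt g z₀)).coeff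
      (HahnSeries.ofPowerSeries ℤ ℂ (taylorAt g z₀)).order ≠ 0 := by
    rw [← HahnSeries.leadingCoeff_eq]; exact HahnSeries.leadingCoeff_ne_zero.mpr h0
  rcases lt_or_ge (HahnSeries.ofPowerSeries ℤ ℂ (taylorAt g z₀)).order 0 with h | h
  · apply hl
    rw [HahnSeries.ofPowerSeries_apply]
    refine HahnSeries.embDomain_of_notMem_range ?_
    rintro ⟨m, hm⟩
    have hm' : (m : ℤ) = (HahnSeries.ofPowerSeries ℤ ℂ (taylorAt g z₀)).order := hm
    omega
  · obtain ⟨m, hm⟩ := Int.eq_ofNat_of_zero_le h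
    rw [hm] at hl hlt
    rw [HahnSeries.ofPowerSeries_apply_coeff, taylorAt_coeff,
      hzero m (by exact_mod_cast hlt), mul_zero] at hl
    exact hl rfl

/-- If `G ∘ g = G` near a fixed point `w₀` of `g`, then `g'(w₀) ^ ord G = 1`. -/
theorem deriv_pow_order_eq_one {G g : ℂ → ℂ} {w₀ : ℂ} (hG : AnalyticAt ℂ G w₀)
    (hg : AnalyticAt ℂ g w₀) (hfix : g w₀ = w₀) (hinv : (G ∘ g) =ᶠ[𝓝 w₀] G) {n : ℕ}
    (hn : analyticOrderAt G w₀ = n) : deriv g w₀ ^ n = 1 := by
  obtain ⟨u, hu, hu0, hGu⟩ := hG.analyticOrderAt_eq_natCast.mp hn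
  have hgd : Tendsto g (𝓝 w₀) (𝓝 w₀) := by
    simpa [hfix] using hg.continuousAt.tendsto
  have h1 : ∀ᶠ z in 𝓝[≠] w₀, slope g w₀ z ^ n * u (g z) = u z := by
    filter_upwards [(hgd.eventually hGu).filter_mono nhdsWithin_le_nhds,
      hGu.filter_mono nhdsWithin_le_nhds, hinv.filter_mono nhdsWithin_le_nhds,
      self_mem_nhdsWithin] with z hz1 hz2 hz3 hz4
    have hne : (z - w₀) ^ n ≠ 0 := pow_ne_zero _ (sub_ne_zero.mpr hz4)
    rw [Function.comp_apply, hz1, hz2, smul_eq_mul, smul_eq_mul] at hz3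
    rw [slope_def_field, hfix, div_pow, div_mul_eq_mul_div, hz3, mul_div_cancel_left₀ _ hne]
  have hlim1 : Tendsto (fun z => slope g w₀ z ^ n * u (g z)) (𝓝[≠] w₀)
      (𝓝 (deriv g w₀ ^ n * u w₀)) := by
    refine ((hasDerivAt_iff_tendsto_slope.mp hg.differentiableAt.hasDerivAt).pow n).mul ?_
    exact (hu.continuousAt.tendsto.comp hgd).mono_left nhdsWithin_le_nhds
  have hlim2 : Tendsto (fun z => slope g w₀ z ^ n * u (g z)) (𝓝[≠] w₀) (𝓝 (u w₀)) :=
    (hu.continuousAt.tendsto.mono_left nhdsWithin_le_nhds).congr' (h1.mono fun z hz => hz.symm)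
  have := tendsto_nhds_unique hlim1 hlim2
  exact mul_right_cancel₀ hu0 (this.trans (one_mul _).symm)

/-- Holomorphic functions on the upper half plane. -/
def holSubring : Subalgebra ℂ (ℍ → ℂ) where
  carrier := {f | MDiff f}
  mul_mem' ha hb := ha.mul hb
  one_mem' := mdifferentiable_const
  add_mem' ha hb := ha.add hb
  zero_mem' := mdifferentiable_const
  algebraMap_mem' _ := mdifferentiable_const

/-- A holomorphic function on the upper half plane is analytic at each point. -/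
theorem analyticAt_comp_ofComplex {f : ℍ → ℂ} (hf : MDiff f) (τ : ℍ) :
    AnalyticAt ℂ (f ∘ ofComplex) (τ : ℂ) :=
  DifferentiableOn.analyticAt (UpperHalfPlane.mdifferentiable_iff.mp hf)
    (isOpen_upperHalfPlaneSet.mem_nhds τ.im_pos)

theorem analyticOnNhd_comp_ofComplex {f : ℍ → ℂ} (hf : MDiff f) :
    AnalyticOnNhd ℂ (f ∘ ofComplex) upperHalfPlaneSet :=
  fun z hz => analyticAt_comp_ofComplex hf ⟨z, hz⟩

theorem isPreconnected_upperHalfPlaneSet : IsPreconnected upperHalfPlaneSet :=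
  (convex_halfSpace_im_gt 0).isPreconnected

/-- A non zero holomorphic function has finite order at each point. -/
theorem analyticOrderAt_ne_top {f : ℍ → ℂ} (hf : MDiff f) (hne : f ≠ 0) (τ : ℍ) :
    analyticOrderAt (f ∘ ofComplex) (τ : ℂ) ≠ ⊤ := by
  intro htop
  apply hne
  funext z
  have h := (analyticOnNhd_comp_ofComplex hf).eqOn_zero_of_preconnected_of_eventuallyEq_zero
    isPreconnected_upperHalfPlaneSet τ.im_pos (analyticOrderAt_eq_top.mp htop) z.im_pos
  simpa [ofComplex_apply] using h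

/-- Taylor expansion at `τ` as a ring map. -/
def germAt (τ : ℍ) : holSubring →+* LaurentSeries ℂ :=
  (HahnSeries.ofPowerSeries ℤ ℂ).comp
    { toFun := fun f => taylorAt ((f : ℍ → ℂ) ∘ ofComplex) τ
      map_one' := by
        show taylorAt (fun _ => (1 : ℂ)) τ = 1
        rw [taylorAt_const, map_one]
      map_mul' := fun f g => taylorAt_mul (analyticAt_comp_ofComplex f.2 τ)
        (analyticAt_comp_ofComplex g.2 τ)
      map_zero' := by
        show taylorAt (fun _ => (0 : ℂ)) τ = 0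
        rw [taylorAt_const, map_zero]
      map_add' := fun f g => taylorAt_add (analyticAt_comp_ofComplex f.2 τ)
        (analyticAt_comp_ofComplex g.2 τ) }

/-- The germ is the Taylor series. -/
theorem germAt_apply (τ : ℍ) (f : holSubring) :
    germAt τ f = HahnSeries.ofPowerSeries ℤ ℂ (taylorAt ((f : ℍ → ℂ) ∘ ofComplex) τ) := rfl

/-- The germ of a constant. -/
theorem germAt_algebraMap (τ : ℍ) (c : ℂ) :
    germAt τ (algebraMap ℂ holSubring c) = HahnSeries.C c := by
  rw [germAt_apply]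
  show HahnSeries.ofPowerSeries ℤ ℂ (taylorAt (fun _ => c) τ) = _
  rw [taylorAt_const, HahnSeries.ofPowerSeries_C]

/-- The order of a germ is the analytic order. -/
theorem order_germAt (τ : ℍ) (f : holSubring) {n : ℕ}
    (hn : analyticOrderAt ((f : ℍ → ℂ) ∘ ofComplex) (τ : ℂ) = n) : (germAt τ f).order = n :=
  order_taylorAt (analyticAt_comp_ofComplex f.2 τ) hn

/-- Germs are injective. -/
theorem germAt_eq_zero_iff (τ : ℍ) (f : holSubring) : germAt τ f = 0 ↔ f = 0 := by
  refine ⟨fun h => ?_, fun h => by rw [h, map_zero]⟩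
  by_contra hne
  have hne' : (f : ℍ → ℂ) ≠ 0 := fun h0 => hne (Subtype.ext h0)
  obtain ⟨n, hn⟩ := ENat.ne_top_iff_exists.mp (analyticOrderAt_ne_top f.2 hne' τ)
  have hzero := (natCast_le_analyticOrderAt_iff_iteratedDeriv_eq_zero
    (analyticAt_comp_ofComplex f.2 τ) (n := n + 1)).mpr fun i _ => by
      have hc := congrArg (fun s : LaurentSeries ℂ => s.coeff (i : ℤ)) h
      rw [germAt_apply] at hc
      simp only [HahnSeries.ofPowerSeries_apply_coeff, taylorAt_coeff, HahnSeries.coeff_zero,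
        mul_eq_zero, inv_eq_zero, Nat.cast_eq_zero, i.factorial_ne_zero, false_or] at hc
      exact hc
  rw [← hn, ENat.natCast_le_natCast] at hzero
  omega

end Fermat.Agent.ModCurveGenus
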