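import Fermat.Agent.ModularFunctionField.LevelOne
import Fermat.Agent.ModCurveGenus.Germ

/-!
# Multiplicities of the `j`-function

The derivative of `j`, the multiplicities of `j - a` (`analyticOrderAt_jj_sub`), the surjectivity
of `j`, and its values at `i` and `ρ`.
-/

set_option autoImplicit false

noncomputable section

open UpperHalfPlane Filter Topology ModularGroup
open scoped Manifold MatrixGroups
open Derivative
open Fermat.Agent.ModularFunctionField (jFun hasExp_E4 hasExp_jFun jFun_invariant mdiff_jFun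
  three_D_E4 D_discriminant slash_eq_self eq_const_of_invariant)

namespace Fermat.Agent.ModCurveGenus

local notation "Δ" => ModularForm.discriminant

/-- `E₄` as a function on `ℂ`. -/
abbrev e4 : ℂ → ℂ := (ModularForm.E₄ : ℍ → ℂ) ∘ ofComplex
/-- `E₆` as a function on `ℂ`. -/
abbrev e6 : ℂ → ℂ := (ModularForm.E₆ : ℍ → ℂ) ∘ ofComplex
/-- `Δ` as a function on `ℂ`. -/
abbrev dd : ℂ → ℂ := Δ ∘ ofComplex
/-- `j` as a function on `ℂ`. -/
abbrev jj : ℂ → ℂ := jFun ∘ ofComplex

theorem analyticAt_e4 (τ : ℍ) : AnalyticAt ℂ e4 τ :=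
  analyticAt_comp_ofComplex (ModularFormClass.holo ModularForm.E₄) τ

theorem analyticAt_e6 (τ : ℍ) : AnalyticAt ℂ e6 τ :=
  analyticAt_comp_ofComplex (ModularFormClass.holo ModularForm.E₆) τ

theorem analyticAt_dd (τ : ℍ) : AnalyticAt ℂ dd τ :=
  analyticAt_comp_ofComplex (ModularFormClass.holo CuspForm.discriminant) τ

/-- `j` is analytic on the upper half plane. -/
theorem analyticAt_jj (τ : ℍ) : AnalyticAt ℂ jj τ := analyticAt_comp_ofComplex mdiff_jFun τ

theorem dd_ne_zero (z : ℂ) : dd z ≠ 0 := ModularForm.discriminant_ne_zero _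

theorem jj_eq (z : ℂ) : jj z = e4 z ^ 3 / dd z := by simp [jFun, div_eq_mul_inv]

theorem jFun_eq_zero_iff (τ : ℍ) : jFun τ = 0 ↔ ModularForm.E₄ τ = 0 := by
  simp [jFun, ModularForm.discriminant_ne_zero τ]

theorem jFun_sub_1728 (τ : ℍ) : jFun τ - 1728 = ModularForm.E₆ τ ^ 2 / Δ τ := by
  have h := ModularForm.discriminant_eq_E₄_cube_sub_E₆_sq τ
  have hd := ModularForm.discriminant_ne_zero τ
  rw [jFun]
  field_simp
  linear_combination -1728 * h

theorem jFun_eq_1728_iff (τ : ℍ) : jFun τ = 1728 ↔ ModularForm.E₆ τ = 0 := by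
  rw [← sub_eq_zero, jFun_sub_1728]
  simp [ModularForm.discriminant_ne_zero τ]

theorem e4_e6_not_both (τ : ℍ) (h4 : ModularForm.E₄ τ = 0) : ModularForm.E₆ τ ≠ 0 := by
  intro h6
  have := ModularForm.discriminant_eq_E₄_cube_sub_E₆_sq τ
  rw [h4, h6] at this
  exact ModularForm.discriminant_ne_zero τ (by rw [this]; ring)

theorem deriv_e4 (τ : ℍ) : deriv e4 τ = 2 * Real.pi * Complex.I / 3 *
    (EisensteinSeries.E2 τ * ModularForm.E₄ τ - ModularForm.E₆ τ) := by
  have h := three_D_E4 τ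
  simp only [normalizedDerivOfComplex] at h
  field_simp at h ⊢
  linear_combination h

theorem deriv_dd (τ : ℍ) :
    deriv dd τ = 2 * Real.pi * Complex.I * (EisensteinSeries.E2 τ * Δ τ) := by
  have h := D_discriminant τ
  simp only [normalizedDerivOfComplex] at h
  field_simp at h ⊢
  linear_combination h

/-- `j' = -2πi E₄² E₆ / Δ`. -/
theorem deriv_jj (τ : ℍ) : deriv jj τ =
    -(2 * Real.pi * Complex.I) * ModularForm.E₄ τ ^ 2 * ModularForm.E₆ τ / Δ τ := by
  have h4 := (analyticAt_e4 τ).differentiableAt.hasDerivAt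
  have hd := (analyticAt_dd τ).differentiableAt.hasDerivAt
  have h := ((h4.pow 3).div hd (dd_ne_zero _)).deriv
  rw [show jj = fun z => e4 z ^ 3 / dd z from funext jj_eq]
  refine h.trans ?_
  rw [deriv_e4, deriv_dd]
  simp only [Pi.pow_apply, Function.comp_apply, ofComplex_apply]
  have := ModularForm.discriminant_ne_zero τ
  field_simp
  push_cast
  ring

theorem analyticOrderAt_of_ne_zero {f : ℂ → ℂ} {z : ℂ} (h : f z ≠ 0) :
    analyticOrderAt f z = 0 :=
  analyticOrderAt_eq_zero.mpr (Or.inr h)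

/-- The multiplicity of `j - a` at a point where it vanishes. -/
def ellMult (a : ℂ) : ℕ := if a = 0 then 3 else if a = 1728 then 2 else 1

/-- Elliptic multiplicities are positive. -/
theorem ellMult_pos (a : ℂ) : 0 < ellMult a := by unfold ellMult; split_ifs <;> norm_num

/-- `j - j(τ)` vanishes at `τ` to the order `ellMult (j τ)`. -/
theorem analyticOrderAt_jj_sub (τ : ℍ) :
    analyticOrderAt (fun z => jj z - jFun τ) τ = (ellMult (jFun τ) : ℕ) := by
  have hja := analyticAt_jj τ
  have hval : jj (τ : ℂ) = jFun τ := by simp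
  have hD := hja.analyticOrderAt_deriv_add_one
  rw [hval] at hD
  by_cases h4 : ModularForm.E₄ τ = 0
  · have h6 := e4_e6_not_both τ h4
    have h40 : e4 (τ : ℂ) = 0 := by simp [h4]
    have hd1 : deriv e4 τ ≠ 0 := by
      rw [deriv_e4, h4, mul_zero, zero_sub]
      simp [h6, Real.pi_ne_zero]
    have ho : analyticOrderAt e4 τ = 1 :=
      (analyticAt_e4 τ).analyticOrderAt_eq_one_of_zero_deriv_ne_zero h40 hd1
    have hinv : AnalyticAt ℂ (fun z => (dd z)⁻¹) τ := (analyticAt_dd τ).inv (dd_ne_zero _)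
    have hj0 : jFun τ = 0 := (jFun_eq_zero_iff τ).mpr h4
    rw [hj0, ellMult, if_pos rfl]
    have hfun : (fun z => jj z - 0) = e4 ^ 3 * fun z => (dd z)⁻¹ := by
      funext z
      rw [Pi.mul_apply, Pi.pow_apply, sub_zero, jj_eq, div_eq_mul_inv]
    rw [hfun, analyticOrderAt_mul ((analyticAt_e4 τ).pow 3) hinv,
      analyticOrderAt_pow (analyticAt_e4 τ), ho,
      analyticOrderAt_of_ne_zero (f := fun z => (dd z)⁻¹) (inv_ne_zero (dd_ne_zero _))]
    simp
  by_cases h6 : ModularForm.E₆ τ = 0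
  · have hj : jFun τ = 1728 := (jFun_eq_1728_iff τ).mpr h6
    have hinv : AnalyticAt ℂ (fun z => (dd z)⁻¹) τ := (analyticAt_dd τ).inv (dd_ne_zero _)
    have hfun : (fun z => jj z - jFun τ) = e6 ^ 2 * fun z => (dd z)⁻¹ := by
      funext z
      rw [hj]
      show jFun (ofComplex z) - 1728 = _
      rw [jFun_sub_1728, div_eq_mul_inv]
      rfl
    set c : ℂ → ℂ := fun z => -(2 * Real.pi * Complex.I) * e4 z ^ 2 / dd z with hc
    have hcan : AnalyticAt ℂ c τ :=
      (analyticAt_const.mul ((analyticAt_e4 τ).pow 2)).div (analyticAt_dd τ) (dd_ne_zero _)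
    have hderiv : deriv jj =ᶠ[𝓝 (τ : ℂ)] c * e6 := by
      filter_upwards [isOpen_upperHalfPlaneSet.mem_nhds τ.im_pos] with z hz
      have := deriv_jj ⟨z, hz⟩
      simp only [Pi.mul_apply, hc, Function.comp_apply, ofComplex_apply_of_im_pos hz]
      rw [this]
      ring
    have hc0 : c τ ≠ 0 := by
      simp [hc, ModularForm.discriminant_ne_zero τ, h4, Real.pi_ne_zero]
    rw [analyticOrderAt_congr hderiv, analyticOrderAt_mul hcan (analyticAt_e6 τ),
      analyticOrderAt_of_ne_zero hc0, zero_add, hfun,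
      analyticOrderAt_mul ((analyticAt_e6 τ).pow 2) hinv,
      analyticOrderAt_pow (analyticAt_e6 τ),
      analyticOrderAt_of_ne_zero (f := fun z => (dd z)⁻¹) (inv_ne_zero (dd_ne_zero _)),
      add_zero] at hD
    have hne : analyticOrderAt e6 τ ≠ ⊤ := analyticOrderAt_ne_top
      (ModularFormClass.holo ModularForm.E₆)
      (fun h => EisensteinSeries.E_ne_zero (k := 6) (by norm_num) (by decide)
        (DFunLike.coe_injective h)) τ
    obtain ⟨m, hm⟩ := ENat.ne_top_iff_exists.mp hne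
    rw [← hm] at hD
    have hm1 : m = 1 := by
      have : ((m + 1 : ℕ) : ℕ∞) = ((2 * m : ℕ) : ℕ∞) := by
        push_cast; rw [hD]; simp [two_mul]
      have := ENat.natCast_inj.mp this
      omega
    rw [hfun, analyticOrderAt_mul ((analyticAt_e6 τ).pow 2) hinv,
      analyticOrderAt_pow (analyticAt_e6 τ),
      analyticOrderAt_of_ne_zero (f := fun z => (dd z)⁻¹) (inv_ne_zero (dd_ne_zero _)),
      ← hm, hm1, ellMult, if_neg (by rw [hj]; norm_num), if_pos hj]
    simp
  · have h0 : deriv jj τ ≠ 0 := by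
      rw [deriv_jj]
      simp [ModularForm.discriminant_ne_zero τ, h4, h6, Real.pi_ne_zero]
    rw [analyticOrderAt_of_ne_zero h0, zero_add] at hD
    rw [← hD, ellMult, if_neg ((jFun_eq_zero_iff τ).not.mpr h4),
      if_neg ((jFun_eq_1728_iff τ).not.mpr h6)]
    simp

/-- `j` takes every complex value. -/
theorem jFun_surjective : Function.Surjective jFun := by
  intro a
  by_contra hne
  push Not at hne
  set g : ℍ → ℂ := fun τ => (jFun τ - a)⁻¹ with hg
  have hne' : ∀ τ, jFun τ - a ≠ 0 := fun τ => sub_ne_zero.mpr (hne τ)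
  have hol : MDiff g := by
    rw [UpperHalfPlane.mdifferentiable_iff]
    exact ((UpperHalfPlane.mdifferentiable_iff.mp mdiff_jFun).sub_const a).fun_inv
      fun z _ => hne' _
  have h4 : Tendsto (ModularForm.E₄ : ℍ → ℂ) atImInfty (𝓝 1) := by
    have := hasExp_E4.tendsto one_ne_zero
      (fun n hn => ModularFunctionField.intSeries_coeff_of_neg _ _ hn)
    rwa [ModularFunctionField.e4C_coeff_zero] at this
  have hd : Tendsto Δ atImInfty (𝓝 0) := by
    have := CuspFormClass.zero_at_infty CuspForm.discriminant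
    exact this
  have hlim : Tendsto g atImInfty (𝓝 0) := by
    have : ∀ τ : ℍ, g τ = Δ τ / (ModularForm.E₄ τ ^ 3 - a * Δ τ) := by
      intro τ
      have := ModularForm.discriminant_ne_zero τ
      simp only [hg, jFun]
      field_simp
    refine Tendsto.congr (fun τ => (this τ).symm) ?_
    have := hd.div ((h4.pow 3).sub (hd.const_mul a)) (by simp)
    simpa [Pi.div_def] using this
  obtain ⟨c, hc⟩ := eq_const_of_invariant g (fun γ τ => by
    show (jFun (γ • τ) - a)⁻¹ = (jFun τ - a)⁻¹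
    rw [jFun_invariant]) hol
    (hlim.isBigO_one ℝ)
  have hc0 : c = 0 := by
    rw [hc] at hlim
    exact tendsto_nhds_unique tendsto_const_nhds hlim
  have := congrFun hc I
  rw [hc0] at this
  exact inv_ne_zero (hne' I) this

/-- `S` fixes `i`. -/
theorem S_smul_I : ModularGroup.S • UpperHalfPlane.I = UpperHalfPlane.I := by
  apply UpperHalfPlane.ext
  rw [modular_S_smul]
  simp [UpperHalfPlane.I, inv_neg]

/-- `ρ² + ρ + 1 = 0`. -/
theorem rho_sq : (ρ : ℂ) ^ 2 + ρ + 1 = 0 := by
  have h3 : (Real.sqrt 3) ^ 2 = 3 := Real.sq_sqrt (by norm_num)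
  apply Complex.ext <;> simp [ρ, pow_two] <;> ring_nf
  linarith [h3]

/-- `S T` fixes `ρ`. -/
theorem ST_smul_rho : (ModularGroup.S * ModularGroup.T) • ρ = ρ := by
  apply UpperHalfPlane.ext
  rw [mul_smul, modular_S_smul, modular_T_smul]
  simp only [coe_vadd, Complex.ofReal_one]
  have h := rho_sq
  have hne : -(1 + (ρ : ℂ)) ≠ 0 := fun h0 => by
    have := congrArg Complex.im h0
    simp [ρ] at this
  apply mul_left_cancel₀ hne
  rw [mul_inv_cancel₀ hne]
  linear_combination h

theorem E6_I : ModularForm.E₆ UpperHalfPlane.I = 0 := by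
  have h := congrFun (slash_eq_self ModularForm.E₆ ModularGroup.S) UpperHalfPlane.I
  rw [ModularForm.SL_slash_apply, S_smul_I] at h
  have hd : denom (ModularGroup.S : GL (Fin 2) ℝ) (UpperHalfPlane.I : ℂ) = Complex.I := by
    rw [ModularGroup.denom_apply]
    simp [ModularGroup.coe_S, UpperHalfPlane.I]
  rw [hd] at h
  have h6 : (Complex.I : ℂ) ^ (-(6 : ℤ)) = -1 := by
    rw [zpow_neg, show (6 : ℤ) = ((6 : ℕ) : ℤ) from rfl, zpow_natCast,
      show (6 : ℕ) = 2 * 3 from rfl, pow_mul, Complex.I_sq]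
    norm_num
  rw [h6] at h
  linear_combination (-1 / 2 : ℂ) * h

theorem E4_rho : ModularForm.E₄ ρ = 0 := by
  have h := congrFun (slash_eq_self ModularForm.E₄ (ModularGroup.S * ModularGroup.T)) ρ
  rw [ModularForm.SL_slash_apply, ST_smul_rho] at h
  have hd : denom ((ModularGroup.S * ModularGroup.T : SL(2, ℤ)) : GL (Fin 2) ℝ) (ρ : ℂ)
      = (ρ : ℂ) + 1 := by
    rw [ModularGroup.denom_apply]
    simp [ModularGroup.coe_S, ModularGroup.coe_T]
  rw [hd] at h
  have hr := rho_sq
  have h1 : ((ρ : ℂ) + 1) ^ 4 * ((ρ : ℂ)) ^ 0 = -((ρ : ℂ) + 1) := by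
    linear_combination ((ρ : ℂ) ^ 2 + 3 * (ρ : ℂ) + 2) * hr
  have hne : (ρ : ℂ) + 1 ≠ 0 := fun h0 => by
    have := congrArg Complex.im h0
    simp [ρ] at this
  rw [zpow_neg, zpow_ofNat] at h
  rw [pow_zero, mul_one] at h1
  rw [h1] at h
  field_simp at h
  by_contra h4
  have : -((ρ : ℂ) + 1) = 1 := by
    apply mul_left_cancel₀ h4
    linear_combination h
  have := congrArg Complex.im this
  simp [ρ] at this

/-- `j(i) = 1728`. -/
theorem jFun_I : jFun UpperHalfPlane.I = 1728 := (jFun_eq_1728_iff _).mpr E6_I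

/-- `j(ρ) = 0`. -/
theorem jFun_rho : jFun ρ = 0 := (jFun_eq_zero_iff _).mpr E4_rho

end Fermat.Agent.ModCurveGenus
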