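import Fermat.Agent.FFPlaces.Global
import Mathlib.RingTheory.LaurentSeries
import Mathlib.FieldTheory.IsAlgClosed.AlgebraicClosure
import Mathlib.FieldTheory.Minpoly.IsIntegrallyClosed
import Mathlib.FieldTheory.PrimitiveElement

/-!
# Counting places over `t = 0`

Given a complete set of embeddings of a function field into Laurent series fields, permuted with
known orbits, the places over `t = 0` correspond to the orbits (`card_fibre_eq`).
-/

set_option autoImplicit false

noncomputable section

open AlgebraicCurve Polynomial IntermediateField IsDedekindDomain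
open Fermat.Agent.FFPlaces

namespace Fermat.Agent.ModCurveGenus

/-- A power series with non zero constant term has order `0`. -/
theorem order_eq_zero_of_constantCoeff {E : Type*} [Field E] {y : PowerSeries E}
    (h : PowerSeries.constantCoeff y ≠ 0) :
    (HahnSeries.ofPowerSeries ℤ E y).order = 0 := by
  have hc : (HahnSeries.ofPowerSeries ℤ E y).coeff ((0 : ℕ) : ℤ) ≠ 0 := by
    rw [HahnSeries.ofPowerSeries_apply_coeff, PowerSeries.coeff_zero_eq_constantCoeff]
    exact h
  refine le_antisymm (HahnSeries.order_le_of_coeff_ne_zero (by simpa using hc)) ?_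
  by_contra hneg
  rw [not_le] at hneg
  have h0 : HahnSeries.ofPowerSeries ℤ E y ≠ 0 := fun h0 => by simp [h0] at hc
  have hne : (HahnSeries.ofPowerSeries ℤ E y).coeff
      (HahnSeries.ofPowerSeries ℤ E y).order ≠ 0 := by
    rw [← HahnSeries.leadingCoeff_eq]; exact HahnSeries.leadingCoeff_ne_zero.mpr h0
  apply hne
  rw [HahnSeries.ofPowerSeries_apply]
  refine HahnSeries.embDomain_of_notMem_range ?_
  rintro ⟨m, hm⟩
  have hm' : (m : ℤ) = (HahnSeries.ofPowerSeries ℤ E y).order := hm
  omega

section Series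

variable (K F : Type*) [Field K] [Field F] [Algebra K F]
  [Algebra K[X] F] [IsScalarTower K K[X] F] {E : Type*} [Field E]

/-- A ring map `F → E((q))` carrying `K[t]` into `E⟦q⟧`, with `t ↦ T`. -/
structure Branch (φ : K →+* E) (T : PowerSeries E) where
  hom : F →+* LaurentSeries E
  hom_C : ∀ c : K, hom (algebraMap K F c) = HahnSeries.C (φ c)
  hom_t : hom (tOf K F) = HahnSeries.ofPowerSeries ℤ E T

/-- `K[X] → E⟦q⟧`, `X ↦ T`. -/
def baseMap (φ : K →+* E) (T : PowerSeries E) : K[X] →+* PowerSeries E :=
  Polynomial.eval₂RingHom ((PowerSeries.C (R := E)).comp φ) T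

variable {K F} {φ : K →+* E} {T : PowerSeries E} (b : Branch K F φ T)

theorem Branch.hom_algebraMap (p : K[X]) :
    b.hom (algebraMap K[X] F p) = HahnSeries.ofPowerSeries ℤ E (baseMap K φ T p) := by
  have : b.hom.comp (algebraMap K[X] F)
      = (HahnSeries.ofPowerSeries ℤ E).comp (baseMap K φ T) := by
    refine Polynomial.ringHom_ext (fun c => ?_) ?_
    · rw [RingHom.comp_apply, RingHom.comp_apply, Polynomial.C_eq_algebraMap,
        ← IsScalarTower.algebraMap_apply, b.hom_C, baseMap, Polynomial.coe_eval₂RingHom,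
        ← Polynomial.C_eq_algebraMap, Polynomial.eval₂_C, RingHom.comp_apply,
        HahnSeries.ofPowerSeries_C]
    · rw [RingHom.comp_apply, RingHom.comp_apply, baseMap, Polynomial.coe_eval₂RingHom,
        Polynomial.eval₂_X]
      exact b.hom_t
  exact RingHom.congr_fun this p

theorem Branch.exists_powerSeries (x : Ring₀ K F) :
    ∃ y, HahnSeries.ofPowerSeries ℤ E y = b.hom (x : F) := by
  have hint : IsIntegral (PowerSeries E) (b.hom (x : F)) := by
    obtain ⟨q, hqm, hq⟩ := x.2
    refine ⟨q.map (baseMap K φ T), hqm.map _, ?_⟩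
    show Polynomial.eval₂ (HahnSeries.ofPowerSeries ℤ E) _ _ = 0
    rw [Polynomial.eval₂_map]
    have hcomp : (HahnSeries.ofPowerSeries ℤ E).comp (baseMap K φ T)
        = b.hom.comp (algebraMap K[X] F) :=
      RingHom.ext fun p => (b.hom_algebraMap p).symm
    rw [hcomp, ← Polynomial.hom_eval₂, hq, map_zero]
  obtain ⟨y, hy⟩ := IsIntegrallyClosed.isIntegral_iff.mp hint
  exact ⟨y, by rw [← hy, LaurentSeries.coe_algebraMap]⟩

/-- The restriction `Ring₀ → E⟦q⟧`. -/
def Branch.res : Ring₀ K F →+* PowerSeries E where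
  toFun x := (b.exists_powerSeries x).choose
  map_one' := HahnSeries.ofPowerSeries_injective (Γ := ℤ) <| by
    rw [(b.exists_powerSeries 1).choose_spec, map_one, OneMemClass.coe_one, map_one]
  map_mul' x y := HahnSeries.ofPowerSeries_injective (Γ := ℤ) <| by
    rw [map_mul, (b.exists_powerSeries _).choose_spec, (b.exists_powerSeries _).choose_spec,
      (b.exists_powerSeries _).choose_spec, MulMemClass.coe_mul, map_mul]
  map_zero' := HahnSeries.ofPowerSeries_injective (Γ := ℤ) <| by
    rw [(b.exists_powerSeries 0).choose_spec, map_zero, ZeroMemClass.coe_zero, map_zero]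
  map_add' x y := HahnSeries.ofPowerSeries_injective (Γ := ℤ) <| by
    rw [map_add, (b.exists_powerSeries _).choose_spec, (b.exists_powerSeries _).choose_spec,
      (b.exists_powerSeries _).choose_spec, AddMemClass.coe_add, map_add]

theorem Branch.ofPowerSeries_res (x : Ring₀ K F) :
    HahnSeries.ofPowerSeries ℤ E (b.res x) = b.hom (x : F) :=
  (b.exists_powerSeries x).choose_spec

/-- The branch restricts to the base map on polynomials. -/
theorem Branch.res_algebraMap (p : K[X]) :
    b.res (algebraMap K[X] (Ring₀ K F) p) = baseMap K φ T p :=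
  HahnSeries.ofPowerSeries_injective (Γ := ℤ) <| by
    rw [b.ofPowerSeries_res, ← b.hom_algebraMap]; rfl

/-- The prime of `Ring₀` under a branch. -/
def Branch.ideal : Ideal (Ring₀ K F) :=
  RingHom.ker ((PowerSeries.constantCoeff (R := E)).comp b.res)

theorem Branch.mem_ideal {x : Ring₀ K F} :
    x ∈ b.ideal ↔ PowerSeries.constantCoeff (b.res x) = 0 := Iff.rfl

theorem Branch.tInt_mem (hT : PowerSeries.constantCoeff T = 0) : tInt K F ∈ b.ideal := by
  rw [Branch.mem_ideal, b.res_algebraMap, baseMap, Polynomial.coe_eval₂RingHom,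
    Polynomial.eval₂_X, hT]

/-- The height one prime under a branch. -/
def Branch.prime (hT : PowerSeries.constantCoeff T = 0) (h0 : tInt K F ≠ 0) :
    HeightOneSpectrum (Ring₀ K F) :=
  ⟨b.ideal, RingHom.ker_isPrime _, fun h => h0 (by
    have := b.tInt_mem hT; rwa [h, Ideal.mem_bot] at this)⟩

variable [IsDedekindDomain (Ring₀ K F)] [IsFractionRing (Ring₀ K F) F]

/-- A branch sends an element of order zero at its prime to a series of order zero. -/
theorem Branch.order_eq_zero_of_ord_eq_zero (hT : PowerSeries.constantCoeff T = 0)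
    (h0 : tInt K F ≠ 0) {f : F} (hf : f ≠ 0)
    (h : (placeOf K F (b.prime hT h0)).ord f = 0) : (b.hom f).order = 0 := by
  set P := b.prime hT h0 with hP
  obtain ⟨a, ⟨s, hs⟩, hfs⟩ := P.exists_primeCompl_mul_eq_of_integer (K := F) f
    ((placeOf_nonneg_iff K F P).mp h.ge)
  have hfs' : f * (s : F) = (a : F) := hfs
  have hs0 : s ≠ 0 := fun h0 => hs (h0 ▸ zero_mem _)
  have hs0F : (s : F) ≠ 0 := by simpa using hs0
  have hsnn : 0 ≤ (placeOf K F P).ord (s : F) :=
    (placeOf_nonneg_iff K F P).mpr (P.valuation_le_one s)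
  have hsord : (placeOf K F P).ord (s : F) = 0 := by
    by_contra hne
    exact hs ((placeOf_pos_iff K F P hs0).mp (by omega))
  have ha0 : a ≠ 0 := by
    intro ha
    rw [ha, ZeroMemClass.coe_zero] at hfs'
    exact mul_ne_zero hf hs0F hfs'
  have ha : a ∉ P.asIdeal := by
    intro ha
    have := (placeOf_pos_iff K F P ha0).mpr ha
    rw [← hfs', Place.ord_mul _ hf hs0F, h, hsord] at this
    omega
  have key : (b.hom f) * HahnSeries.ofPowerSeries ℤ E (b.res s)
      = HahnSeries.ofPowerSeries ℤ E (b.res a) := by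
    rw [b.ofPowerSeries_res, b.ofPowerSeries_res, ← map_mul, hfs']
  have hor := congrArg HahnSeries.order key
  rw [HahnSeries.order_mul (by simpa using hf) (by rw [b.ofPowerSeries_res]; simpa using hs0),
    order_eq_zero_of_constantCoeff (b.mem_ideal.not.mp hs),
    order_eq_zero_of_constantCoeff (b.mem_ideal.not.mp ha)] at hor
  omega

/-- The order along a branch is a positive multiple of the order at its place. -/
theorem Branch.exists_order_eq (hT : PowerSeries.constantCoeff T = 0) (h0 : tInt K F ≠ 0)
    (hTpos : 0 < (HahnSeries.ofPowerSeries ℤ E T).order) :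
    ∃ k : ℤ, 0 < k ∧ (∀ f : F, f ≠ 0 →
        (b.hom f).order = (placeOf K F (b.prime hT h0)).ord f * k) ∧
      ∃ π : F, π ≠ 0 ∧ (b.hom π).order = k := by
  set v := placeOf K F (b.prime hT h0) with hv
  obtain ⟨π, hπ0, hπ⟩ := exists_uniformizer v
  have key := fun (f : F) (hf : f ≠ 0) => eq_ord_mul v (fun g => (b.hom g).order)
    (fun x y hx hy => by
      rw [map_mul]; exact HahnSeries.order_mul (by simpa using hx) (by simpa using hy))
    (fun x hx hxo => b.order_eq_zero_of_ord_eq_zero hT h0 hx hxo) hπ0 hπ hf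
  refine ⟨(b.hom π).order, ?_, key, π, hπ0, rfl⟩
  have htF : tOf K F ≠ 0 := fun h => h0 (Subtype.ext h)
  have h1 := key (tOf K F) htF
  rw [b.hom_t] at h1
  have h2 : 0 < v.ord (tOf K F) := (placeOf_pos_iff K F _ h0).mpr (b.tInt_mem hT)
  rw [h1] at hTpos
  exact pos_of_mul_pos_right hTpos h2.le

end Series

section Count

variable (K F Kt : Type*) [Field K] [Field F] [Field Kt] [Algebra K F]
  [Algebra K[X] F] [IsScalarTower K K[X] F]
  [Algebra K[X] Kt] [IsFractionRing K[X] Kt] [Algebra Kt F] [IsScalarTower K[X] Kt F]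
  [FiniteDimensional Kt F] [Algebra.IsSeparable Kt F] [IsAlgClosed K]
  [IsDedekindDomain (Ring₀ K F)] [IsFractionRing (Ring₀ K F) F]
  [Module.Finite K[X] (Ring₀ K F)]
variable {E : Type*} [Field E] {φ : K →+* E} {T : PowerSeries E}

omit [IsAlgClosed K] [IsFractionRing (Ring₀ K F) F] [Module.Finite K[X] (Ring₀ K F)] in
include Kt in
/-- Every prime over `t = 0` lies under a branch. -/
theorem exists_branch_prime_eq {ι : Type*} [Fintype ι] [Nonempty ι] (b : ι → Branch K F φ T)
    (hinj : Function.Injective fun i => (b i).hom) (hn : Module.finrank Kt F = Fintype.card ι)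
    (hT : PowerSeries.constantCoeff T = 0) (h0 : tInt K F ≠ 0)
    (Q : HeightOneSpectrum (Ring₀ K F)) (hQ : tInt K F ∈ Q.asIdeal) :
    ∃ i, (b i).prime hT h0 = Q := by
  classical
  by_contra hne
  push Not at hne
  -- an element in every branch prime but not in `Q`
  have hnle : ¬ (∏ i : ι, (b i).ideal) ≤ Q.asIdeal := by
    rw [Q.isPrime.prod_le]
    rintro ⟨i, -, hi⟩
    exact hne i (HeightOneSpectrum.ext (((b i).prime hT h0).isMaximal.eq_of_le Q.isPrime.ne_top hi))
  obtain ⟨f, hfmem, hfQ⟩ := SetLike.not_le_iff_exists.mp hnle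
  have hf : ∀ i, f ∈ (b i).ideal := fun i =>
    (Ideal.prod_le_inf.trans (Finset.inf_le (Finset.mem_univ i))) hfmem
  -- all conjugates of `f` are its images under the branches
  let i₀ : ι := Classical.arbitrary ι
  let : Algebra Kt (LaurentSeries E) := ((b i₀).hom.comp (algebraMap Kt F)).toAlgebra
  let Ω := AlgebraicClosure (LaurentSeries E)
  let : Algebra Kt Ω := ((algebraMap (LaurentSeries E) Ω).comp (algebraMap Kt _)).toAlgebra
  have hagree : ∀ i (x : Kt),
      (b i).hom (algebraMap Kt F x) = (b i₀).hom (algebraMap Kt F x) := by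
    intro i x
    have : (b i).hom.comp (algebraMap Kt F) = (b i₀).hom.comp (algebraMap Kt F) :=
      IsFractionRing.ringHom_ext (A := K[X]) fun p => by
        rw [RingHom.comp_apply, RingHom.comp_apply, ← IsScalarTower.algebraMap_apply,
          Branch.hom_algebraMap, Branch.hom_algebraMap]
    exact RingHom.congr_fun this x
  let Φ : ι → (F →ₐ[Kt] Ω) := fun i =>
    { (algebraMap (LaurentSeries E) Ω).comp (b i).hom with
      commutes' := fun x => congrArg (algebraMap (LaurentSeries E) Ω) (hagree i x) }
  have hΦinj : Function.Injective Φ := fun i j hij => hinj (RingHom.ext fun x =>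
    (algebraMap (LaurentSeries E) Ω).injective (AlgHom.congr_fun hij x))
  have hΦ : Function.Bijective Φ :=
    (Fintype.bijective_iff_injective_and_card Φ).mpr ⟨hΦinj, by rw [AlgHom.card, hn]⟩
  have hfint : IsIntegral K[X] (f : F) := f.2
  set μ := minpoly K[X] (f : F) with hμ
  have hμm : μ.Monic := minpoly.monic hfint
  have := faithful K F Kt
  have hmin : minpoly Kt (f : F) = μ.map (algebraMap K[X] Kt) :=
    minpoly.isIntegrallyClosed_eq_field_fractions' Kt hfint
  let j : PowerSeries E →+* Ω :=
    (algebraMap (LaurentSeries E) Ω).comp (HahnSeries.ofPowerSeries ℤ E)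
  have hj : Function.Injective j :=
    (algebraMap (LaurentSeries E) Ω).injective.comp HahnSeries.ofPowerSeries_injective
  have hcomp : (algebraMap Kt Ω).comp (algebraMap K[X] Kt) = j.comp (baseMap K φ T) := by
    refine RingHom.ext fun p => ?_
    show algebraMap (LaurentSeries E) Ω ((b i₀).hom (algebraMap Kt F (algebraMap K[X] Kt p))) = _
    rw [← IsScalarTower.algebraMap_apply, Branch.hom_algebraMap]
    rfl
  set μ' := μ.map (baseMap K φ T) with hμ'
  have hmapΩ : (minpoly Kt (f : F)).map (algebraMap Kt Ω) = μ'.map j := by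
    rw [hmin, hμ', Polynomial.map_map, Polynomial.map_map, hcomp]
  have hroots : ∀ r ∈ (μ'.map j).roots,
      ∃ y : PowerSeries E, PowerSeries.constantCoeff y = 0 ∧ j y = r := by
    intro r hr
    have hr' : r ∈ (minpoly Kt (f : F)).rootSet Ω := by
      rw [Polynomial.mem_rootSet']
      rw [Polynomial.mem_roots', Polynomial.IsRoot.def, Polynomial.eval_map, ← hmapΩ] at hr
      refine ⟨hr.1, ?_⟩
      rw [Polynomial.aeval_def, ← Polynomial.eval_map, hmapΩ, Polynomial.eval_map]
      exact hr.2
    rw [← Algebra.IsAlgebraic.range_eval_eq_rootSet_minpoly] at hr'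
    obtain ⟨ψ, rfl⟩ := hr'
    obtain ⟨i, rfl⟩ := hΦ.2 ψ
    exact ⟨(b i).res f, hf i,
      congrArg (algebraMap (LaurentSeries E) Ω) ((b i).ofPowerSeries_res f)⟩
  have hfac := (IsAlgClosed.splits (μ'.map j)).eq_prod_roots_of_monic ((hμm.map _).map _)
  choose! g hg0 hgj using hroots
  set M := (μ'.map j).roots.map g with hM
  have hμ'fac : μ' = (M.map fun y => Polynomial.X - Polynomial.C y).prod := by
    apply Polynomial.map_injective j hj
    conv_lhs => rw [hfac]
    rw [hM, Polynomial.map_multiset_prod, Multiset.map_map, Multiset.map_map]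
    refine congrArg _ (Multiset.map_congr rfl fun r hr => ?_)
    simp [hgj r hr]
  have hred : μ'.map (PowerSeries.constantCoeff (R := E))
      = Polynomial.X ^ Multiset.card M := by
    rw [hμ'fac, Polynomial.map_multiset_prod, Multiset.map_map]
    have : M.map ((Polynomial.map (PowerSeries.constantCoeff (R := E))) ∘
        fun y => Polynomial.X - Polynomial.C y) = M.map fun _ => (Polynomial.X : E[X]) := by
      refine Multiset.map_congr rfl fun y hy => ?_
      obtain ⟨r, hr, rfl⟩ := Multiset.mem_map.mp hy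
      simp [hg0 r hr]
    rw [this, Multiset.map_const', Multiset.prod_replicate]
  have hcc : (PowerSeries.constantCoeff (R := E)).comp (baseMap K φ T)
      = φ.comp Polynomial.constantCoeff := by
    refine Polynomial.ringHom_ext (fun c => ?_) ?_
    · simp [baseMap]
    · simp [baseMap, hT]
  have hred₀ : μ.map Polynomial.constantCoeff = Polynomial.X ^ Multiset.card M := by
    apply Polynomial.map_injective φ φ.injective
    rw [Polynomial.map_map, ← hcc, ← Polynomial.map_map, ← hμ', hred, Polynomial.map_pow,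
      Polynomial.map_X]
  -- reduce modulo `Q`
  let ψ : K →+* Ring₀ K F ⧸ Q.asIdeal :=
    ((Ideal.Quotient.mk Q.asIdeal).comp (algebraMap K[X] (Ring₀ K F))).comp Polynomial.C
  have hQψ : (Ideal.Quotient.mk Q.asIdeal).comp (algebraMap K[X] (Ring₀ K F))
      = ψ.comp Polynomial.constantCoeff := by
    refine Polynomial.ringHom_ext (fun a => ?_) ?_
    · rw [RingHom.comp_apply, RingHom.comp_apply, Polynomial.constantCoeff_apply,
        Polynomial.coeff_C_zero]
      rfl
    · rw [RingHom.comp_apply, RingHom.comp_apply, Polynomial.constantCoeff_apply,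
        Polynomial.coeff_X_zero, map_zero]
      exact Ideal.Quotient.eq_zero_iff_mem.mpr hQ
  have hμ0 : μ.eval₂ (algebraMap K[X] (Ring₀ K F)) f = 0 := by
    apply Subtype.val_injective
    have := minpoly.aeval K[X] (f : F)
    rw [Polynomial.aeval_def] at this
    rw [← hμ] at this
    show (integralClosure K[X] F).val _ = _
    rw [← AlgHom.coe_toRingHom, Polynomial.hom_eval₂, AlgHom.comp_algebraMap]
    exact this
  have h1 : (μ.map Polynomial.constantCoeff).eval₂ ψ (Ideal.Quotient.mk Q.asIdeal f) = 0 := by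
    rw [Polynomial.eval₂_map, ← hQψ, ← Polynomial.hom_eval₂, hμ0, map_zero]
  rw [hred₀, Polynomial.eval₂_X_pow, ← map_pow, Ideal.Quotient.eq_zero_iff_mem] at h1
  exact hfQ (Q.isPrime.mem_of_pow_mem _ h1)

include Kt in
/-- If the embeddings in one orbit induce the same orders and the order of `T` divides the orbit
size times every order, then the places over `t = 0` correspond to the orbits. -/
theorem card_fibre_eq {ι O : Type*} [Fintype ι] [Fintype O] (b : ι → Branch K F φ T)
    (hinj : Function.Injective fun i => (b i).hom) (hn : Module.finrank Kt F = Fintype.card ι)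
    (hT : PowerSeries.constantCoeff T = 0) (hTpos : 0 < (HahnSeries.ofPowerSeries ℤ E T).order)
    (orb : ι → O) (horb : Function.Surjective orb)
    (hsame : ∀ i j, orb i = orb j → ∀ f : F, ((b i).hom f).order = ((b j).hom f).order)
    (hdvd : ∀ i (f : F), f ≠ 0 → (HahnSeries.ofPowerSeries ℤ E T).order
      ∣ (Nat.card {j // orb j = orb i} : ℤ) * ((b i).hom f).order) :
    Nat.card {v : Place K F // 0 < v.ord (tOf K F)} = Fintype.card O ∧
      ∀ v : Place K F, 0 < v.ord (tOf K F) →
        ∃ i, v.ord (tOf K F) ≤ (Nat.card {j // orb j = orb i} : ℤ) := by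
  classical
  have : Nonempty ι := Fintype.card_pos_iff.mp (hn ▸ Module.finrank_pos)
  have h0 : tInt K F ≠ 0 := tInt_ne_zero K F Kt
  set e₀ := (HahnSeries.ofPowerSeries ℤ E T).order with he₀
  let S := {v : Place K F // 0 < v.ord (tOf K F)}
  let pl : ι → S := fun i => ⟨placeOf K F ((b i).prime hT h0),
    (placeOf_pos_iff K F _ h0).mpr ((b i).tInt_mem hT)⟩
  have hsurj : Function.Surjective pl := by
    rintro ⟨v, hv⟩
    obtain ⟨i, hi⟩ := exists_branch_prime_eq K F Kt b hinj hn hT h0 (center K F v hv.le)
      ((mem_centerIdeal_iff K F v hv.le).mpr (Or.inr hv))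
    exact ⟨i, Subtype.ext (by show placeOf K F _ = v; rw [hi, placeOf_center])⟩
  have hconst : ∀ i j, orb i = orb j → pl i = pl j := by
    intro i j hij
    refine Subtype.ext (ord_eq_of_le fun f hf => ?_)
    rcases eq_or_ne f 0 with rfl | hf0
    · simp
    obtain ⟨k, hk, hki, -⟩ := (b i).exists_order_eq hT h0 hTpos
    obtain ⟨l, hl, hlj, -⟩ := (b j).exists_order_eq hT h0 hTpos
    have h := hsame i j hij f
    rw [hki f hf0, hlj f hf0] at h
    exact nonneg_of_mul_nonneg_left (h ▸ mul_nonneg hf hk.le) hl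
  let g : O → S := fun o => pl (Function.surjInv horb o)
  have hg : ∀ i, g (orb i) = pl i := fun i => hconst _ _ (Function.surjInv_eq horb _)
  have hgsurj : Function.Surjective g := fun v => by
    obtain ⟨i, rfl⟩ := hsurj v; exact ⟨orb i, hg i⟩
  have : Finite S := Finite.of_surjective g hgsurj
  let := Fintype.ofFinite S
  let m : O → ℕ := fun o => Nat.card {j // orb j = o}
  have hmpos : ∀ o, 0 < m o := fun o => by
    obtain ⟨i, hi⟩ := horb o
    have : Nonempty {j // orb j = o} := ⟨⟨i, hi⟩⟩
    exact Nat.card_pos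
  have hle : ∀ o, (g o).1.ord (tOf K F) ≤ (m o : ℤ) := by
    intro o
    obtain ⟨i, rfl⟩ := horb o
    rw [hg]
    obtain ⟨k, hk, hki, π, hπ0, hπk⟩ := (b i).exists_order_eq hT h0 hTpos
    have ht := hki (tOf K F) (fun h => h0 (Subtype.ext h))
    rw [(b i).hom_t] at ht
    have hd := hdvd i π hπ0
    rw [hπk] at hd
    rw [← he₀] at ht
    rw [ht] at hd
    have hd' := Int.dvd_of_mul_dvd_mul_right hk.ne' hd
    exact Int.le_of_dvd (by exact_mod_cast hmpos (orb i)) hd'
  have hsum : ∑ o, (m o : ℤ) = (Fintype.card ι : ℤ) := by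
    rw [← Nat.cast_sum]
    congr 1
    rw [← Fintype.card_sigma.symm.trans (Fintype.card_congr (Equiv.sigmaFiberEquiv orb))]
    exact Finset.sum_congr rfl fun o _ => Nat.card_eq_fintype_card
  let s : S → O := Function.surjInv hgsurj
  have hs : Function.Injective s := Function.injective_surjInv hgsurj
  have h1 : ∑ v : S, v.1.ord (tOf K F) ≤ ∑ v : S, (m (s v) : ℤ) :=
    Finset.sum_le_sum fun v _ => by
      have := hle (s v)
      rwa [Function.surjInv_eq hgsurj v] at this
  refine ⟨?_, fun v hv => ?_⟩
  swap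
  · obtain ⟨o, ho⟩ := hgsurj ⟨v, hv⟩
    obtain ⟨i, rfl⟩ := horb o
    have hle' := hle (orb i)
    rw [ho] at hle'
    exact ⟨i, hle'⟩
  rw [sum_ord_tOf K F Kt, hn, ← hsum,
    ← Finset.sum_image (f := fun o => (m o : ℤ)) (g := s) (fun x _ y _ h => hs h)] at h1
  have himg : Finset.univ.image s = Finset.univ := by
    by_contra hne
    obtain ⟨o, -, ho⟩ := Finset.exists_of_ssubset
      (lt_of_le_of_ne (Finset.subset_univ _) hne)
    have := Finset.sum_lt_sum_of_subset (Finset.subset_univ (Finset.univ.image s))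
      (Finset.mem_univ o) ho (by exact_mod_cast hmpos o : (0 : ℤ) < m o)
      (fun j _ _ => Int.natCast_nonneg _)
    omega
  rw [Nat.card_eq_fintype_card, ← Finset.card_univ (α := O), ← himg,
    Finset.card_image_of_injective _ hs, Finset.card_univ]

end Count

end Fermat.Agent.ModCurveGenus
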