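import Fermat.Agent.ModCurveGenus.Degree
import Fermat.Agent.ModCurveGenus.EllipticPoints
import Fermat.Agent.ModCurveGenus.FiberCount

/-!
# Embeddings at points and cusps

The embeddings of the function field of `X₀(N)` into `ℂ((z))` at points and cusps; there are
`[SL₂(ℤ) : Γ₀(N)]` of them over `ℚ̄(j)`, which is hence the degree (`finrank_eq`).
-/

set_option autoImplicit false

noncomputable section

open UpperHalfPlane Filter Topology CongruenceSubgroup Polynomial IntermediateField
open scoped Manifold MatrixGroups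
open Fermat.Agent.ModularFunctionField (jFun hasExp_jFun jFun_invariant mdiff_jFun HasExp)

namespace Fermat.Agent.ModCurveGenus

section Lift

/-- Extension to the quotient field. -/
theorem exists_lift {P F L : Type*} [CommRing P] [Field F] [Field L] (e : P →+* F) (Ψ : P →+* L)
    (hker : ∀ p, Ψ p = 0 ↔ e p = 0) (hfrac : ∀ f : F, ∃ r s, e s ≠ 0 ∧ f = e r / e s) :
    ∃ σ : F →+* L, ∀ p, σ (e p) = Ψ p := by
  choose r s hs hf using hfrac
  have hind : ∀ f a b, e b ≠ 0 → f = e a / e b → Ψ (r f) / Ψ (s f) = Ψ a / Ψ b := by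
    intro f a b hb hab
    rw [div_eq_div_iff ((hker _).not.mpr (hs f)) ((hker _).not.mpr hb), ← map_mul, ← map_mul,
      ← sub_eq_zero, ← map_sub, hker, map_sub, map_mul, map_mul, sub_eq_zero,
      ← div_eq_div_iff (hs f) hb, ← hf f]
    exact hab
  have hΨ : ∀ f, Ψ (s f) ≠ 0 := fun f => (hker _).not.mpr (hs f)
  refine ⟨{ toFun := fun f => Ψ (r f) / Ψ (s f), map_one' := ?_, map_mul' := ?_, map_zero' := ?_,
            map_add' := ?_ }, fun p => ?_⟩
  · rw [hind 1 1 1 (by simp) (by simp)]; simp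
  · intro f g
    rw [hind (f * g) (r f * r g) (s f * s g)
      (by rw [map_mul]; exact mul_ne_zero (hs f) (hs g))
      (by rw [map_mul, map_mul, mul_div_mul_comm, ← hf f, ← hf g]), map_mul, map_mul,
      mul_div_mul_comm]
  · rw [hind 0 0 1 (by simp) (by simp)]; simp
  · intro f g
    rw [hind (f + g) (r f * s g + r g * s f) (s f * s g)
      (by rw [map_mul]; exact mul_ne_zero (hs f) (hs g))
      (by
        conv_lhs => rw [hf f, hf g]
        rw [div_add_div _ _ (hs f) (hs g), map_add, map_mul, map_mul, map_mul]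
        ring_nf), map_mul, map_add, map_mul, map_mul, div_add_div _ _ (hΨ f) (hΨ g)]
    ring_nf
  · show Ψ (r (e p)) / Ψ (s (e p)) = Ψ p
    rw [hind (e p) p 1 (by simp) (by simp)]; simp

end Lift

variable (N : ℕ) [NeZero N]

theorem cuspLift_exists (x : Cos N) :
    ∃ σ : FN N →+* LaurentSeries ℂ, ∀ p, σ (ev N p) = cuspExp (mero N x p) := by
  refine exists_lift (ev N).toRingHom (cuspExp.comp (mero N x)) (fun p => ?_) (exists_frac N)
  rw [RingHom.comp_apply, cuspExp_eq_zero_iff, ← Subtype.val_inj, coe_mero]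
  exact fn_eq_zero_iff N x p

/-- The embedding at the cusp `x`. -/
def cuspLift (x : Cos N) : FN N →+* LaurentSeries ℂ := (cuspLift_exists N x).choose

/-- The cusp branch on the image of a polynomial. -/
theorem cuspLift_ev (x : Cos N) (p : PN N) : cuspLift N x (ev N p) = cuspExp (mero N x p) :=
  (cuspLift_exists N x).choose_spec p

theorem germLift_exists (τ₀ : ℍ) (x : Cos N) :
    ∃ σ : FN N →+* LaurentSeries ℂ, ∀ p, σ (ev N p) = germAt τ₀ (hol N x p) := by
  refine exists_lift (ev N).toRingHom ((germAt τ₀).comp (hol N x)) (fun p => ?_) (exists_frac N)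
  rw [RingHom.comp_apply, germAt_eq_zero_iff, ← Subtype.val_inj, coe_hol]
  exact fn_eq_zero_iff N x p

/-- The embedding at the point `τ₀` twisted by `x`. -/
def germLift (τ₀ : ℍ) (x : Cos N) : FN N →+* LaurentSeries ℂ := (germLift_exists N τ₀ x).choose

/-- The interior branch on the image of a polynomial. -/
theorem germLift_ev (τ₀ : ℍ) (x : Cos N) (p : PN N) :
    germLift N τ₀ x (ev N p) = germAt τ₀ (hol N x p) :=
  (germLift_exists N τ₀ x).choose_spec p

/-- Distinct cosets give distinct embeddings at the cusp. -/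
theorem cuspLift_injective : Function.Injective (cuspLift N) := by
  intro x y h
  apply fn_separates N
  have h' := RingHom.congr_fun h (ev N (MvPolynomial.X (topD N)))
  rw [cuspLift_ev, cuspLift_ev, ← sub_eq_zero, ← map_sub, cuspExp_eq_zero_iff, sub_eq_zero] at h'
  exact congrArg Subtype.val h'

/-- Interior branches are injective. -/
theorem germLift_injective (τ₀ : ℍ) : Function.Injective (germLift N τ₀) := by
  intro x y h
  apply fn_separates N
  have h' := RingHom.congr_fun h (ev N (MvPolynomial.X (topD N)))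
  rw [germLift_ev, germLift_ev, ← sub_eq_zero, ← map_sub, germAt_eq_zero_iff, sub_eq_zero] at h'
  exact congrArg Subtype.val h'

/-- The translates of a polynomial in `j` are that polynomial in `jFun`. -/
theorem fn_jPoly (x : Cos N) (q : Qb[X]) (τ : ℍ) :
    fn N x (jPoly N q) τ = (q.map iotaC).eval (jFun τ) := by
  show eta N (jPoly N q) (x.out⁻¹ • τ) = _
  rw [eta_jPoly, jFun_invariant]

theorem cuspLift_base (x y : Cos N) (c : Qb⟮jEl N⟯) :
    cuspLift N x (algebraMap Qb⟮jEl N⟯ (FN N) c) =
      cuspLift N y (algebraMap Qb⟮jEl N⟯ (FN N) c) := by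
  obtain ⟨r, s, hc⟩ := (IntermediateField.mem_adjoin_simple_iff Qb (c : FN N)).mp c.2
  show cuspLift N x (c : FN N) = cuspLift N y (c : FN N)
  rw [hc, map_div₀, map_div₀, ← ev_jPoly, ← ev_jPoly, cuspLift_ev, cuspLift_ev, cuspLift_ev,
    cuspLift_ev]
  have : ∀ q, mero N x (jPoly N q) = mero N y (jPoly N q) := fun q =>
    Subtype.ext (funext fun τ => by rw [coe_mero, coe_mero, fn_jPoly, fn_jPoly])
  rw [this, this]

/-- `[F_N : ℚ̄(j)] = [SL₂(ℤ) : Γ₀(N)]`. -/
theorem finrank_eq : Module.finrank Qb⟮jEl N⟯ (FN N) = Fintype.card (Cos N) := by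
  refine le_antisymm (finrank_le N) ?_
  have := finiteDimensional_FN N
  have := FFPlaces.charZero_adjoin (K := Qb) (jEl N)
  let x₀ : Cos N := QuotientGroup.mk 1
  let Ω := AlgebraicClosure (LaurentSeries ℂ)
  let j : LaurentSeries ℂ →+* Ω := algebraMap _ _
  let : Algebra Qb⟮jEl N⟯ Ω :=
    (j.comp ((cuspLift N x₀).comp (algebraMap Qb⟮jEl N⟯ (FN N)))).toAlgebra
  let Φ : Cos N → (FN N →ₐ[Qb⟮jEl N⟯] Ω) := fun x =>
    { j.comp (cuspLift N x) with commutes' := fun c => congrArg j (cuspLift_base N x x₀ c) }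
  have hΦ : Function.Injective Φ := fun x y h =>
    cuspLift_injective N (RingHom.ext fun f => j.injective (AlgHom.congr_fun h f))
  calc Fintype.card (Cos N) ≤ Fintype.card (FN N →ₐ[Qb⟮jEl N⟯] Ω) :=
        Fintype.card_le_of_injective Φ hΦ
    _ = _ := AlgHom.card Qb⟮jEl N⟯ (FN N) Ω

end Fermat.Agent.ModCurveGenus
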