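import Fermat.Agent.ModCurveGenus.Fibres
import Fermat.Agent.FFPlaces.Curve
import Fermat.Agent.Differentials.CanonicalGenus

/-!
# The genus of `X₀(N)`

The genus of the function field of `X₀(N)` over `ℚ̄` is given by the classical formula
(`genusFF_FN`).
-/

set_option autoImplicit false

noncomputable section

open Polynomial IntermediateField
open AlgebraicCurve (Place IsCurveOver genusFF)

namespace Fermat.Agent.ModCurveGenus

variable (N : ℕ) [NeZero N]

/-- The function field is that of a curve over `ℚ̄`. -/
theorem isCurveOver_FN : IsCurveOver Qb (FN N) :=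
  FFPlaces.isCurveOver (finiteOverGen_FN N) (jEl_transcendental N)

/-- The field is a function field in one variable. -/
theorem isFunctionField_FN : FunctionField.IsFunctionField Qb (FN N) :=
  have := finiteDimensional_FN N
  FunctionField.isFunctionField_of_finiteDimensional (jEl_transcendental N)

/-- The number of cosets is the Dedekind psi function. -/
theorem card_cos_eq_psi : Fintype.card (Cos N) = ModularCurve.dedekindPsi N := by
  rw [← Nat.card_eq_fintype_card, Gamma0Cosets.card_cosets]

/-- The places over `j = a`. -/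
def fibreSet (a : Qb) : Finset (Place Qb (FN N)) :=
  (Set.finite_coe_iff.mp (FFPlaces.pos_fiber (finiteOverGen_FN N) (transcendental_jEl_sub N a)) :
    {v : Place Qb (FN N) | 0 < v.ord (jEl N - algebraMap Qb (FN N) a)}.Finite).toFinset

/-- Membership of the fibre over `a`. -/
theorem mem_fibreSet (a : Qb) (v : Place Qb (FN N)) :
    v ∈ fibreSet N a ↔ 0 < v.ord (jEl N - algebraMap Qb (FN N) a) := by
  simp [fibreSet]

/-- The size of the fibre over `a`. -/
theorem card_fibreSet (a : Qb) :
    (fibreSet N a).card
      = Nat.card {v : Place Qb (FN N) // 0 < v.ord (jEl N - algebraMap Qb (FN N) a)} := by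
  rw [← Nat.card_eq_finsetCard]
  exact Nat.card_congr (Equiv.subtypeEquivRight fun v => mem_fibreSet N a v)

/-- The fibre over `a` has total degree `ψ(N)`. -/
theorem sum_fibreSet (a : Qb) :
    ∑ v ∈ fibreSet N a, v.ord (jEl N - algebraMap Qb (FN N) a)
      = (ModularCurve.dedekindPsi N : ℤ) := by
  have ht := transcendental_jEl_sub N a
  have := FFPlaces.pos_fiber (finiteOverGen_FN N) ht
  let := Fintype.ofFinite {v : Place Qb (FN N) // 0 < v.ord (jEl N - algebraMap Qb (FN N) a)}
  rw [Finset.sum_subtype (fibreSet N a) (mem_fibreSet N a),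
    FFPlaces.sum_ord_pos (finiteOverGen_FN N) ht, finrank_congr N (adjoin_jEl_sub N a),
    card_cos_eq_psi]

/-- The poles of `j`. -/
def poleSet : Finset (Place Qb (FN N)) :=
  (Set.finite_coe_iff.mp (FFPlaces.pos_fiber (finiteOverGen_FN N) (transcendental_jEl_inv N)) :
    {v : Place Qb (FN N) | 0 < v.ord (jEl N)⁻¹}.Finite).toFinset

/-- Membership of the fibre over `∞`. -/
theorem mem_poleSet (v : Place Qb (FN N)) : v ∈ poleSet N ↔ v.ord (jEl N) < 0 := by
  simp [poleSet, Place.ord_inv]

/-- `j` has as many poles as there are cusps. -/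
theorem card_poleSet : (poleSet N).card = ModularCurve.cuspCount N := by
  rw [← Nat.card_eq_finsetCard, ← card_fibre_infty]
  exact Nat.card_congr (Equiv.subtypeEquivRight fun v => mem_poleSet N v)

/-- The poles of `j` have total degree `ψ(N)`. -/
theorem sum_poleSet :
    ∑ v ∈ poleSet N, v.ord (jEl N) = -(ModularCurve.dedekindPsi N : ℤ) := by
  have ht := transcendental_jEl_inv N
  have := FFPlaces.pos_fiber (finiteOverGen_FN N) ht
  let := Fintype.ofFinite {v : Place Qb (FN N) // 0 < v.ord (jEl N)⁻¹}
  have hmem : ∀ v, v ∈ poleSet N ↔ 0 < v.ord (jEl N)⁻¹ := fun v => by simp [poleSet]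
  rw [Finset.sum_subtype (poleSet N) hmem, ← card_cos_eq_psi,
    ← finrank_congr N (FFPlaces.adjoin_inv (jEl N)),
    ← FFPlaces.sum_ord_pos (finiteOverGen_FN N) ht, ← Finset.sum_neg_distrib]
  exact Finset.sum_congr rfl fun v _ => by rw [Place.ord_inv, neg_neg]

/-- The genus of the function field of `X₀(N)`. -/
theorem genusFF_FN : (genusFF Qb (FN N) : ℚ) = ModularCurve.genusFormula N := by
  classical
  have := isCurveOver_FN N
  have := isFunctionField_FN N
  have hne : (0 : Qb) ≠ 1728 := by norm_num
  have hS : ∀ a ∉ ({0, 1728} : Finset Qb), ∀ v ∈ fibreSet N a,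
      v.ord (jEl N - algebraMap Qb (FN N) a) = 1 := by
    intro a ha v hv
    simp only [Finset.mem_insert, Finset.mem_singleton, not_or] at ha
    exact ord_eq_one_of_ne N a ha.1 ha.2 v ((mem_fibreSet N a v).mp hv)
  have h := Differentials.genusFF_eq_of_fibers (jEl_transcendental N) (ModularCurve.dedekindPsi N)
    (fibreSet N) (poleSet N) (mem_fibreSet N) (mem_poleSet N) (sum_fibreSet N) (sum_poleSet N)
    {0, 1728} hS
  rw [Finset.sum_pair hne, card_poleSet, card_fibreSet, card_fibreSet, map_zero, sub_zero] at h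
  have h0 := three_mul_card_fibre_zero N
  have h1 := two_mul_card_fibre_1728 N
  have h' := congrArg (fun z : ℤ => (z : ℚ)) h
  have h0' := congrArg (fun z : ℕ => (z : ℚ)) h0
  have h1' := congrArg (fun z : ℕ => (z : ℚ)) h1
  push_cast at h' h0' h1'
  rw [ModularCurve.genusFormula]
  linear_combination (1 / 2 : ℚ) * h' - (1 / 6 : ℚ) * h0' - (1 / 4 : ℚ) * h1'

end Fermat.Agent.ModCurveGenus
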