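import Fermat.Agent.ModCurveGenus.Branches
import Fermat.Agent.Gamma0Cosets.Orbits
import Fermat.Agent.Gamma0Cosets.Cusps
import Fermat.Agent.Gamma0Cosets.Index

/-!
# Places over the values of `j`

The numbers of places of the function field of `X₀(N)` over `j = ∞, 0, 1728` and the ramification
of `j` over every value.
-/

set_option autoImplicit false

noncomputable section

open UpperHalfPlane Filter Topology CongruenceSubgroup Polynomial IntermediateField MulAction
open scoped Manifold MatrixGroups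
open AlgebraicCurve (Place)
open Fermat.Agent.ModularFunctionField (jFun jFun_invariant mdiff_jFun)

namespace Fermat.Agent.ModCurveGenus

variable (N : ℕ) [NeZero N]

theorem exists_pow_smul_of_orbit (g : SL(2, ℤ)) {x y : Cos N}
    (h : y ∈ orbit (Subgroup.zpowers g) x) : ∃ i : ℕ, g ^ i • x = y := by
  obtain ⟨⟨_, z, rfl⟩, hz⟩ := h
  have hs : Equiv.Perm.SameCycle (MulAction.toPermHom SL(2, ℤ) (Cos N) g) x y := by
    refine ⟨z, ?_⟩
    rw [← map_zpow]
    exact hz
  obtain ⟨i, -, hi⟩ := hs.exists_pow_eq'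
  refine ⟨i, ?_⟩
  rw [← map_pow] at hi
  exact hi

theorem card_orb_fibre_dvd_iff (g : SL(2, ℤ)) (x : Cos N) (m : ℕ) :
    g ^ m • x = x ↔
      Nat.card {j : Cos N // (Quotient.mk'' j : orbitRel.Quotient (Subgroup.zpowers g) (Cos N))
        = Quotient.mk'' x} ∣ m := by
  classical
  have : Fintype (orbit (Subgroup.zpowers g) x) := Fintype.ofFinite _
  rw [pow_smul_eq_iff_minimalPeriod_dvd, MulAction.minimalPeriod_eq_card g x,
    ← Nat.card_eq_fintype_card]
  have : Nat.card (orbit (Subgroup.zpowers g) x) = Nat.card {j : Cos N //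
      (Quotient.mk'' j : orbitRel.Quotient (Subgroup.zpowers g) (Cos N)) = Quotient.mk'' x} :=
    Nat.card_congr (Equiv.subtypeEquivRight fun j => by
      rw [Quotient.eq'']; rfl)
  exact Iff.of_eq (congrArg (· ∣ m) this)

/-- The degree over a generator of `Q(j)` is the number of cosets. -/
theorem finrank_congr {t : FN N} (h : Qb⟮t⟯ = Qb⟮jEl N⟯) :
    Module.finrank Qb⟮t⟯ (FN N) = Fintype.card (Cos N) := by
  have key : ∀ E E' : IntermediateField Qb (FN N), E = E' →
      Module.finrank E (FN N) = Module.finrank E' (FN N) := by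
    rintro E _ rfl; rfl
  rw [key _ _ h, finrank_eq]

/-- Places over `t = 0` from a family of embeddings permuted by `g`. -/
theorem card_fibre {t : FN N} (ht : Transcendental Qb t) (hadj : Qb⟮t⟯ = Qb⟮jEl N⟯)
    (T : PowerSeries ℂ) (σ : Cos N → FN N →+* LaurentSeries ℂ) (hσ : Function.Injective σ)
    (hC : ∀ x c, σ x (algebraMap Qb (FN N) c) = HahnSeries.C (iotaC c))
    (hσt : ∀ x, σ x t = HahnSeries.ofPowerSeries ℤ ℂ T)
    (hT : PowerSeries.constantCoeff T = 0) {e₀ : ℕ} (he₀ : 0 < e₀)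
    (hTe : (HahnSeries.ofPowerSeries ℤ ℂ T).order = (e₀ : ℤ)) (g : SL(2, ℤ))
    (hsame : ∀ x (i : ℕ) (p : PN N),
      (σ (g ^ i • x) (ev N p)).order = (σ x (ev N p)).order)
    (hdvd : ∀ x (i : ℕ) (p : PN N), g ^ i • x = x → ev N p ≠ 0 →
      (e₀ : ℤ) ∣ (i : ℤ) * (σ x (ev N p)).order) :
    Nat.card {v : Place Qb (FN N) // 0 < v.ord t}
        = Nat.card (orbitRel.Quotient (Subgroup.zpowers g) (Cos N)) ∧
      ∀ v : Place Qb (FN N), 0 < v.ord t → ∀ M : ℕ, (∀ x : Cos N, g ^ M • x = x) → 0 < M →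
        v.ord t ≤ M := by
  classical
  let := FFPlaces.genAlgebra (K := Qb) t
  let := FFPlaces.genAlgebraField (K := Qb) t
  have := FFPlaces.genAlgebra_tower_base (K := Qb) t
  have := FFPlaces.genAlgebra_tower (K := Qb) t
  have := FFPlaces.genAlgebra_isFractionRing ht
  have := finiteOverGen_FN N t ht
  have := FFPlaces.charZero_adjoin (K := Qb) t
  have := FFPlaces.ring₀_isDedekind Qb (FN N) Qb⟮t⟯
  have := FFPlaces.ring₀_isFractionRing Qb (FN N) Qb⟮t⟯
  have := FFPlaces.ring₀_finite Qb (FN N) Qb⟮t⟯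
  have : Fintype (orbitRel.Quotient (Subgroup.zpowers g) (Cos N)) := Fintype.ofFinite _
  have htOf : FFPlaces.tOf Qb (FN N) = t := Polynomial.aeval_X t
  let b : Cos N → Branch Qb (FN N) iotaC T := fun x =>
    { hom := σ x, hom_C := hC x, hom_t := by rw [htOf]; exact hσt x }
  have hinj : Function.Injective fun x => (b x).hom := hσ
  have hn := finrank_congr N hadj
  have hfrac : ∀ (x : Cos N) (r s : PN N), ev N r ≠ 0 → ev N s ≠ 0 →
      (σ x (ev N r / ev N s)).order = (σ x (ev N r)).order - (σ x (ev N s)).order := by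
    intro x r s hr hs
    have h1 : σ x (ev N r / ev N s) ≠ 0 := (_root_.map_ne_zero _).mpr (div_ne_zero hr hs)
    have h2 : σ x (ev N r / ev N s) * σ x (ev N s) = σ x (ev N r) := by
      rw [← map_mul, div_mul_cancel₀ _ hs]
    rw [eq_sub_iff_add_eq, ← HahnSeries.order_mul h1 ((_root_.map_ne_zero _).mpr hs), h2]
  obtain ⟨hcard, hbound⟩ := card_fibre_eq Qb (FN N) Qb⟮t⟯ b hinj hn hT
    (by rw [hTe]; exact_mod_cast he₀)
    (fun x => (Quotient.mk'' x : orbitRel.Quotient (Subgroup.zpowers g) (Cos N)))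
    Quotient.mk''_surjective
    (fun x y hxy f => by
      obtain ⟨i, rfl⟩ := exists_pow_smul_of_orbit N g (Quotient.eq''.mp hxy.symm)
      obtain ⟨r, s, hs, rfl⟩ := exists_frac N f
      show (σ x _).order = (σ (g ^ i • x) _).order
      by_cases hr : ev N r = 0
      · rw [hr, zero_div, map_zero, map_zero]
      rw [hfrac _ r s hr hs, hfrac _ r s hr hs, hsame, hsame])
    (fun x f hf => by
      obtain ⟨r, s, hs, rfl⟩ := exists_frac N f
      have hr : ev N r ≠ 0 := fun h => hf (by rw [h, zero_div])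
      show _ ∣ _ * (σ x _).order
      rw [hTe, hfrac _ r s hr hs, mul_sub]
      have hm := (card_orb_fibre_dvd_iff N g x _).mpr dvd_rfl
      exact dvd_sub (hdvd x _ r hm hr) (hdvd x _ s hm hs))
  rw [htOf] at hcard hbound
  refine ⟨by rw [hcard, Nat.card_eq_fintype_card], fun v hv M hM hM0 => ?_⟩
  obtain ⟨x, hx⟩ := hbound v hv
  exact hx.trans (by exact_mod_cast Nat.le_of_dvd hM0 ((card_orb_fibre_dvd_iff N g x M).mp (hM x)))

/-! ### The embeddings on constants and on polynomials in `j` -/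

theorem ev_C (c : Qb) : ev N (MvPolynomial.C c) = algebraMap Qb (FN N) c := (ev N).commutes c

theorem cuspLift_C (x : Cos N) (c : Qb) :
    cuspLift N x (algebraMap Qb (FN N) c) = HahnSeries.C (iotaC c) := by
  rw [← ev_C, cuspLift_ev, ← cuspExp_algebraMap (N := N)]
  exact congrArg cuspExp (Subtype.ext (by rw [coe_mero, fn_C]; rfl))

theorem germLift_C (τ₀ : ℍ) (x : Cos N) (c : Qb) :
    germLift N τ₀ x (algebraMap Qb (FN N) c) = HahnSeries.C (iotaC c) := by
  rw [← ev_C, germLift_ev, ← germAt_algebraMap τ₀]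
  exact congrArg (germAt τ₀) (Subtype.ext (by rw [coe_hol, fn_C]; rfl))

/-- `1 / j` is transcendental. -/
theorem transcendental_jEl_inv : Transcendental Qb (jEl N)⁻¹ :=
  fun h => jEl_transcendental N (by simpa using h.inv)

/-- `j - a` is transcendental. -/
theorem transcendental_jEl_sub (a : Qb) : Transcendental Qb (jEl N - algebraMap Qb (FN N) a) :=
  fun h => jEl_transcendental N (by
    simpa using (h.isIntegral.add (isIntegral_algebraMap (x := a))).isAlgebraic)

/-- `j - a` generates `Q(j)`. -/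
theorem adjoin_jEl_sub (a : Qb) : Qb⟮jEl N - algebraMap Qb (FN N) a⟯ = Qb⟮jEl N⟯ := by
  refine le_antisymm ?_ ?_ <;> rw [adjoin_simple_le_iff]
  · exact sub_mem (mem_adjoin_simple_self _ _) (IntermediateField.algebraMap_mem _ _)
  · simpa using add_mem (mem_adjoin_simple_self Qb (jEl N - algebraMap Qb (FN N) a))
      (IntermediateField.algebraMap_mem Qb⟮jEl N - algebraMap Qb (FN N) a⟯ a)

theorem ev_X_one : ev N (jPoly N Polynomial.X) = jEl N := by
  rw [ev_jPoly, Polynomial.aeval_X]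

/-! ### Cusps -/

theorem order_cuspLift_jEl (x : Cos N) : (cuspLift N x (jEl N)).order = -(N : ℤ) := by
  rw [← ev_X_one, cuspLift_ev]
  refine order_cuspExp_of_tendsto N _ one_ne_zero (tendsto_jFun_mul_q.congr fun τ => ?_)
  rw [Pi.mul_apply, coe_mero, fn_jPoly, Polynomial.map_X, Polynomial.eval_X, qN,
    Function.Periodic.qParam, Function.Periodic.qParam, ← Complex.exp_nat_mul]
  congr 2
  have hN : (N : ℂ) ≠ 0 := Nat.cast_ne_zero.mpr (NeZero.ne N)
  push_cast
  field_simp

theorem fn_translate (x : Cos N) (i : ℕ) (p : PN N) (τ : ℍ) :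
    fn N x p τ = fn N (ModularGroup.T ^ i • x) p ((i : ℝ) +ᵥ τ) := by
  rw [show ((i : ℝ) +ᵥ τ) = ModularGroup.T ^ i • τ by
    rw [← zpow_natCast ModularGroup.T i, modular_T_zpow_smul, Int.cast_natCast],
    fn_smul, inv_smul_smul]

/-- The cusps of `X₀(N)`. -/
theorem card_fibre_infty :
    Nat.card {v : Place Qb (FN N) // v.ord (jEl N) < 0} = ModularCurve.cuspCount N := by
  let x₀ : Cos N := QuotientGroup.mk 1
  set s : LaurentSeries ℂ := cuspLift N x₀ (jEl N)⁻¹ with hs
  have hj0 : jEl N ≠ 0 := fun h => jEl_transcendental N (h ▸ isAlgebraic_zero)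
  have hso : s.order = (N : ℤ) := by
    have h1 : cuspLift N x₀ (jEl N) ≠ 0 := (_root_.map_ne_zero _).mpr hj0
    have h2 : s ≠ 0 := (_root_.map_ne_zero _).mpr (inv_ne_zero hj0)
    have h3 : s * cuspLift N x₀ (jEl N) = 1 := by rw [hs, ← map_mul, inv_mul_cancel₀ hj0, map_one]
    have h4 := congrArg HahnSeries.order h3
    rw [HahnSeries.order_mul h2 h1, order_cuspLift_jEl, HahnSeries.order_one] at h4
    omega
  set T : PowerSeries ℂ := PowerSeries.X ^ N * s.powerSeriesPart with hT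
  have hTs : HahnSeries.ofPowerSeries ℤ ℂ T = s := by
    rw [hT, map_mul, HahnSeries.ofPowerSeries_X_pow]
    conv_rhs => rw [← LaurentSeries.single_order_mul_powerSeriesPart s, hso]
  have h := (card_fibre N (transcendental_jEl_inv N) (FFPlaces.adjoin_inv (jEl N)) T (cuspLift N)
    (cuspLift_injective N) (cuspLift_C N)
    (fun x => by
      rw [hTs, hs, map_inv₀, map_inv₀, ← ev_X_one, cuspLift_ev, cuspLift_ev]
      exact congrArg (fun f => (cuspExp f)⁻¹) (Subtype.ext (funext fun τ => by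
        rw [coe_mero, coe_mero, fn_jPoly, fn_jPoly])))
    (by simp [hT, NeZero.ne N]) (Nat.pos_of_ne_zero (NeZero.ne N)) (by rw [hTs, hso])
    ModularGroup.T
    (fun x i p => by
      rw [cuspLift_ev, cuspLift_ev]
      exact ((order_cuspExp_translate (mero N (ModularGroup.T ^ i • x) p) (mero N x p) i
        (fn_translate N x i p)).1).symm)
    (fun x i p hx hp => by
      rw [cuspLift_ev]
      refine (order_cuspExp_translate (mero N x p) (mero N x p) i fun τ => ?_).2 rfl ?_
      · rw [coe_mero]; conv_rhs => rw [← hx]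
        exact fn_translate N x i p τ
      · intro h0
        exact hp ((fn_eq_zero_iff N x p).mp (congrArg Subtype.val h0)))).1
  rw [← Gamma0Cosets.card_orbits_T, ← h]
  exact Nat.card_congr (Equiv.subtypeEquivRight fun v => by rw [Place.ord_inv]; omega)

/-! ### Points -/

/-- The Möbius map of `g` on `ℂ`, extended as `ofComplex` is. -/
def mob (g : SL(2, ℤ)) (z : ℂ) : ℂ := ((g • ofComplex z : ℍ) : ℂ)

theorem mob_mul (g h : SL(2, ℤ)) : mob (g * h) = mob g ∘ mob h := by
  funext z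
  simp [mob, mul_smul]

theorem mob_eventuallyEq (g : SL(2, ℤ)) (τ : ℍ) :
    mob g =ᶠ[𝓝 (τ : ℂ)]
      fun z => ((g 0 0 : ℂ) * z + g 0 1) / ((g 1 0 : ℂ) * z + g 1 1) := by
  filter_upwards [isOpen_upperHalfPlaneSet.mem_nhds τ.im_pos] with z hz
  rw [mob, sl2_smul_coe, ofComplex_apply_of_im_pos hz]

theorem analyticAt_mob (g : SL(2, ℤ)) (τ : ℍ) : AnalyticAt ℂ (mob g) τ :=
  ((((analyticAt_const.mul analyticAt_id).add analyticAt_const)).div
    ((analyticAt_const.mul analyticAt_id).add analyticAt_const)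
      (sl2_denom_ne_zero g τ)).congr (mob_eventuallyEq g τ).symm

theorem hasDerivAt_mob (g : SL(2, ℤ)) (τ : ℍ) :
    HasDerivAt (mob g) (((g 1 0 : ℂ) * τ + g 1 1) ^ 2)⁻¹ τ := by
  refine HasDerivAt.congr_of_eventuallyEq ?_ (mob_eventuallyEq g τ)
  have hd : ((g 0 0 : ℂ) * g 1 1 - g 0 1 * g 1 0) = 1 := by
    have := g.det_coe
    rw [Matrix.det_fin_two] at this
    exact_mod_cast this
  have h := ((((hasDerivAt_id (τ : ℂ)).const_mul (g 0 0 : ℂ)).add_const (g 0 1 : ℂ))).div
    (((hasDerivAt_id (τ : ℂ)).const_mul (g 1 0 : ℂ)).add_const (g 1 1 : ℂ))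
    (sl2_denom_ne_zero g τ)
  refine h.congr_deriv ?_
  rw [inv_eq_one_div]
  congr 1
  simp only [id_eq]
  linear_combination hd

variable {N}

theorem fn_comp_mob (x : Cos N) (h : SL(2, ℤ)) (p : PN N) (τ₀ : ℍ) :
    (fn N (h • x) p ∘ ofComplex) ∘ mob h =ᶠ[𝓝 (τ₀ : ℂ)] fn N x p ∘ ofComplex := by
  refine Eventually.of_forall fun z => ?_
  simp only [Function.comp_apply, mob, ofComplex_apply, fn_smul, inv_smul_smul]

variable {τ₀ : ℍ} {g : SL(2, ℤ)}

theorem mob_pow_fix (hfix : g • τ₀ = τ₀) (i : ℕ) : mob (g ^ i) τ₀ = τ₀ := by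
  rw [mob, ofComplex_apply]
  exact congrArg UpperHalfPlane.coe
    (MulAction.pow_smul_eq_iff_minimalPeriod_dvd.mpr
      ((Function.minimalPeriod_eq_one_iff_isFixedPt.mpr hfix).symm ▸ one_dvd i))

theorem deriv_mob_pow (hfix : g • τ₀ = τ₀) (i : ℕ) :
    HasDerivAt (mob (g ^ i)) ((((g 1 0 : ℂ) * τ₀ + g 1 1) ^ 2)⁻¹ ^ i) τ₀ := by
  induction i with
  | zero => simpa using hasDerivAt_mob 1 τ₀
  | succ i ih =>
    rw [pow_succ', pow_succ', mob_mul]
    refine HasDerivAt.comp (x := (τ₀ : ℂ)) ?_ ih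
    rw [mob_pow_fix hfix i]
    exact hasDerivAt_mob g τ₀

theorem order_germ_smul (hfix : g • τ₀ = τ₀) (x : Cos N) (i : ℕ) (p : PN N) :
    (germLift N τ₀ (g ^ i • x) (ev N p)).order = (germLift N τ₀ x (ev N p)).order := by
  by_cases hp : ev N p = 0
  · rw [hp, map_zero, map_zero]
  rw [germLift_ev, germLift_ev]
  have hne : ∀ y : Cos N, fn N y p ≠ 0 := fun y h => hp ((fn_eq_zero_iff N y p).mp h)
  have hd := deriv_mob_pow hfix i
  have hfix' := mob_pow_fix hfix i
  have heq : analyticOrderAt (fn N x p ∘ ofComplex) (τ₀ : ℂ)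
      = analyticOrderAt (fn N (g ^ i • x) p ∘ ofComplex) (τ₀ : ℂ) := by
    rw [← analyticOrderAt_congr (fn_comp_mob x (g ^ i) p τ₀),
      analyticOrderAt_comp_of_deriv_ne_zero (analyticAt_mob _ _) (by
        rw [hd.deriv]
        exact pow_ne_zero _ (inv_ne_zero (pow_ne_zero _ (sl2_denom_ne_zero g τ₀)))), hfix']
  obtain ⟨n, hn⟩ := ENat.ne_top_iff_exists.mp (analyticOrderAt_ne_top (hol N x p).2 (hne x) τ₀)
  rw [coe_hol] at hn
  rw [order_germAt τ₀ (hol N x p) (n := n) hn.symm,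
    order_germAt τ₀ (hol N (g ^ i • x) p) (n := n) (heq.symm.trans hn.symm)]

theorem root_pow_germ (hfix : g • τ₀ = τ₀) (x : Cos N) (i : ℕ) (hx : g ^ i • x = x) (p : PN N)
    (hp : ev N p ≠ 0) :
    ∃ n : ℕ, (germLift N τ₀ x (ev N p)).order = (n : ℤ) ∧
      (((g 1 0 : ℂ) * τ₀ + g 1 1) ^ 2)⁻¹ ^ (i * n) = 1 := by
  rw [germLift_ev]
  have hd := deriv_mob_pow hfix i
  have hfix' := mob_pow_fix hfix i
  have hne : fn N x p ≠ 0 := fun h => hp ((fn_eq_zero_iff N x p).mp h)
  obtain ⟨n, hn⟩ := ENat.ne_top_iff_exists.mp (analyticOrderAt_ne_top (hol N x p).2 hne τ₀)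
  rw [coe_hol] at hn
  refine ⟨n, order_germAt τ₀ (hol N x p) hn.symm, ?_⟩
  have hinv := fn_comp_mob x (g ^ i) p τ₀
  rw [hx] at hinv
  have := deriv_pow_order_eq_one (analyticAt_comp_ofComplex (hol N x p).2 τ₀)
    (analyticAt_mob (g ^ i) τ₀) hfix' hinv hn.symm
  rwa [hd.deriv, ← pow_mul] at this

variable (N)

/-- Places over `j = a`, from a point `τ₀` with `j(τ₀) = a` and a generator `g` of its
stabiliser. -/
theorem card_fibre_point (a : Qb) (g : SL(2, ℤ)) (τ₀ : ℍ) (hj : jFun τ₀ = iotaC a)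
    (hfix : g • τ₀ = τ₀)
    (hroot : ∀ k : ℕ, (((g 1 0 : ℂ) * τ₀ + g 1 1) ^ 2)⁻¹ ^ k = 1 → ellMult (iotaC a) ∣ k) :
    Nat.card {v : Place Qb (FN N) // 0 < v.ord (jEl N - algebraMap Qb (FN N) a)}
        = Nat.card (orbitRel.Quotient (Subgroup.zpowers g) (Cos N)) ∧
      ∀ v : Place Qb (FN N), 0 < v.ord (jEl N - algebraMap Qb (FN N) a) →
        ∀ M : ℕ, (∀ x : Cos N, g ^ M • x = x) → 0 < M →
          v.ord (jEl N - algebraMap Qb (FN N) a) ≤ M := by
  set G : ℂ → ℂ := fun z => jj z - jFun τ₀ with hG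
  have hGa : AnalyticAt ℂ G τ₀ := (analyticAt_jj τ₀).sub analyticAt_const
  refine card_fibre N (transcendental_jEl_sub N a) (adjoin_jEl_sub N a) (taylorAt G τ₀)
    (germLift N τ₀) (germLift_injective N τ₀) (germLift_C N τ₀) (fun x => ?_) ?_
    (ellMult_pos (iotaC a)) (order_taylorAt hGa (by rw [← hj]; exact analyticOrderAt_jj_sub τ₀)) g
    (fun x i p => order_germ_smul hfix x i p) (fun x i p hx hp => ?_)
  · have : jEl N - algebraMap Qb (FN N) a = ev N (jPoly N (Polynomial.X - Polynomial.C a)) := by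
      rw [ev_jPoly, map_sub, Polynomial.aeval_X, Polynomial.aeval_C]
    rw [this, germLift_ev, germAt_apply]
    congr 2
    funext z
    rw [Function.comp_apply, coe_hol, fn_jPoly, Polynomial.map_sub, Polynomial.map_X,
      Polynomial.map_C, Polynomial.eval_sub, Polynomial.eval_X, Polynomial.eval_C, hG, hj]
    rfl
  · rw [← PowerSeries.coeff_zero_eq_constantCoeff, taylorAt_coeff]
    simp [hG]
  · obtain ⟨n, hn, h1⟩ := root_pow_germ hfix x i hx p hp
    rw [hn, ← Nat.cast_mul]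
    exact_mod_cast hroot _ h1

/-- The embedding detects `0`. -/
theorem iotaC_eq_zero_iff (a : Qb) : iotaC a = 0 ↔ a = 0 := map_eq_zero iotaC

/-- The embedding detects `1728`. -/
theorem iotaC_eq_1728_iff (a : Qb) : iotaC a = 1728 ↔ a = 1728 := by
  rw [← map_ofNat iotaC 1728, iotaC.injective.eq_iff]

omit [NeZero N] in
theorem ST_pow_three_smul (x : Cos N) : (ModularGroup.S * ModularGroup.T) ^ 3 • x = x := by
  rw [show ((ModularGroup.S * ModularGroup.T) ^ 3 : SL(2, ℤ)) = -1 by decide]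
  exact Gamma0Cosets.neg_one_smul x

omit [NeZero N] in
theorem S_pow_two_smul (x : Cos N) : ModularGroup.S ^ 2 • x = x := by
  rw [show (ModularGroup.S ^ 2 : SL(2, ℤ)) = -1 by decide]
  exact Gamma0Cosets.neg_one_smul x

/-- The places over `j = 0` are the orbits of `S T`, with ramification at most `3`. -/
theorem fibre_zero :
    Nat.card {v : Place Qb (FN N) // 0 < v.ord (jEl N)}
        = Nat.card (orbitRel.Quotient (Subgroup.zpowers (ModularGroup.S * ModularGroup.T))
            (Cos N)) ∧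
      ∀ v : Place Qb (FN N), 0 < v.ord (jEl N) → v.ord (jEl N) ≤ 3 := by
  obtain ⟨h1, h2⟩ := card_fibre_point N 0 (ModularGroup.S * ModularGroup.T) ρ
    (by rw [jFun_rho, map_zero]) ST_smul_rho (fun k hk => by
      rw [map_zero, ellMult, if_pos rfl]
      have hr := rho_sq
      have h3 : (ρ : ℂ) ^ 3 = 1 := by linear_combination ((ρ : ℂ) - 1) * hr
      have hne : (ρ : ℂ) ≠ 1 := fun h0 => by
        have := congrArg Complex.im h0
        simp [ρ] at this
      have : Fact (Nat.Prime 3) := ⟨Nat.prime_three⟩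
      rw [← orderOf_eq_prime h3 hne]
      apply orderOf_dvd_of_pow_eq_one
      have e10 : (ModularGroup.S * ModularGroup.T : SL(2, ℤ)) 1 0 = 1 := by decide
      have e11 : (ModularGroup.S * ModularGroup.T : SL(2, ℤ)) 1 1 = 1 := by decide
      rw [e10, e11] at hk
      push_cast at hk
      rw [one_mul, show ((ρ : ℂ) + 1) ^ 2 = (ρ : ℂ) by linear_combination hr, inv_pow,
        inv_eq_one] at hk
      exact hk)
  rw [map_zero, sub_zero] at h1 h2
  exact ⟨h1, fun v hv => by exact_mod_cast h2 v hv 3 (ST_pow_three_smul N) (by norm_num)⟩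

/-- The number of places over `j = 0`. -/
theorem three_mul_card_fibre_zero :
    3 * Nat.card {v : Place Qb (FN N) // 0 < v.ord (jEl N)}
      = ModularCurve.dedekindPsi N + 2 * ModularCurve.nuThree N := by
  rw [(fibre_zero N).1, Gamma0Cosets.three_mul_card_orbits_ST, Gamma0Cosets.card_cosets]

/-- The places over `j = 1728` are the orbits of `S`, with ramification at most `2`. -/
theorem fibre_1728 :
    Nat.card {v : Place Qb (FN N) // 0 < v.ord (jEl N - algebraMap Qb (FN N) 1728)}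
        = Nat.card (orbitRel.Quotient (Subgroup.zpowers ModularGroup.S) (Cos N)) ∧
      ∀ v : Place Qb (FN N), 0 < v.ord (jEl N - algebraMap Qb (FN N) 1728) →
        v.ord (jEl N - algebraMap Qb (FN N) 1728) ≤ 2 := by
  obtain ⟨h1, h2⟩ := card_fibre_point N 1728 ModularGroup.S UpperHalfPlane.I
    (by rw [jFun_I, map_ofNat]) S_smul_I (fun k hk => by
      rw [map_ofNat, ellMult, if_neg (by norm_num), if_pos rfl]
      have e10 : (ModularGroup.S : SL(2, ℤ)) 1 0 = 1 := by decide
      have e11 : (ModularGroup.S : SL(2, ℤ)) 1 1 = 0 := by decide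
      rw [e10, e11] at hk
      push_cast at hk
      rw [one_mul, add_zero, Complex.I_sq, inv_pow, inv_eq_one,
        neg_one_pow_eq_one_iff_even (by norm_num), even_iff_two_dvd] at hk
      exact hk)
  exact ⟨h1, fun v hv => by exact_mod_cast h2 v hv 2 (S_pow_two_smul N) (by norm_num)⟩

/-- The number of places over `j = 1728`. -/
theorem two_mul_card_fibre_1728 :
    2 * Nat.card {v : Place Qb (FN N) // 0 < v.ord (jEl N - algebraMap Qb (FN N) 1728)}
      = ModularCurve.dedekindPsi N + ModularCurve.nuTwo N := by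
  rw [(fibre_1728 N).1, Gamma0Cosets.two_mul_card_orbits_S, Gamma0Cosets.card_cosets]

/-- `j - a` has only simple zeros for `a ≠ 0, 1728`. -/
theorem ord_eq_one_of_ne (a : Qb) (ha : a ≠ 0) (ha' : a ≠ 1728) (v : Place Qb (FN N))
    (hv : 0 < v.ord (jEl N - algebraMap Qb (FN N) a)) :
    v.ord (jEl N - algebraMap Qb (FN N) a) = 1 := by
  obtain ⟨τ₀, hτ₀⟩ := jFun_surjective (iotaC a)
  have h2 := (card_fibre_point N a 1 τ₀ hτ₀ (one_smul _ _) (fun k _ => by
    rw [ellMult, if_neg ((iotaC_eq_zero_iff a).not.mpr ha),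
      if_neg ((iotaC_eq_1728_iff a).not.mpr ha')]
    exact one_dvd k)).2 v hv 1 (fun x => by rw [one_pow, one_smul]) one_pos
  push_cast at h2
  omega

/-- `[F_N : ℚ̄(j)] = ψ(N)`. -/
theorem finrank_eq_psi : Module.finrank Qb⟮jEl N⟯ (FN N) = ModularCurve.dedekindPsi N := by
  rw [finrank_eq, ← Nat.card_eq_fintype_card, Gamma0Cosets.card_cosets]

open Classical in
/-- The ramification of `j`. -/
theorem ord_jEl_sub_le (a : Qb) (v : Place Qb (FN N))
    (hv : 0 < v.ord (jEl N - algebraMap Qb (FN N) a)) :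
    v.ord (jEl N - algebraMap Qb (FN N) a) ≤ if a = 0 then 3 else if a = 1728 then 2 else 1 := by
  split_ifs with h0 h1
  · subst h0
    rw [map_zero, sub_zero] at hv ⊢
    exact (fibre_zero N).2 v hv
  · subst h1
    exact (fibre_1728 N).2 v hv
  · exact (ord_eq_one_of_ne N a h0 h1 v hv).le

end Fermat.Agent.ModCurveGenus
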