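import Fermat.Agent.ModCurveGenus.Germ

/-!
# Expansions at the cusp `∞`

Functions periodic of period `N` and meromorphic at `∞`, their Laurent expansion in `q_N` as a
ring map (`cuspExp`), and the effect of translations on its order.
-/

set_option autoImplicit false

noncomputable section

open UpperHalfPlane Filter Topology Function
open scoped Manifold

namespace Fermat.Agent.ModCurveGenus

variable (N : ℕ) [NeZero N]

/-- `q_N ^ M` as a function on the upper half plane. -/
def qN (M : ℕ) : ℍ → ℂ := fun τ => Periodic.qParam (N : ℝ) (τ : ℂ) ^ M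

omit [NeZero N] in
theorem qN_ne_zero (M : ℕ) (τ : ℍ) : qN N M τ ≠ 0 := pow_ne_zero _ (Periodic.qParam_ne_zero _)

/-- The width is positive as a real number. -/
theorem N_pos : (0 : ℝ) < N := Nat.cast_pos.mpr (Nat.pos_of_ne_zero (NeZero.ne N))

omit [NeZero N] in
theorem qParam_add_nat (z : ℂ) (m : ℕ) :
    Periodic.qParam (N : ℝ) (z + m) =
      Periodic.qParam (N : ℝ) z * Complex.exp (2 * Real.pi * Complex.I * m / N) := by
  rw [Periodic.qParam, Periodic.qParam, ← Complex.exp_add]
  congr 1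
  push_cast
  ring

theorem qParam_periodic (z : ℂ) :
    Periodic.qParam (N : ℝ) (z + N) = Periodic.qParam (N : ℝ) z := by
  rw [qParam_add_nat, mul_div_cancel_right₀ _ (Nat.cast_ne_zero.mpr (NeZero.ne N)),
    Complex.exp_two_pi_mul_I, mul_one]

theorem isBoundedAtImInfty_qN (M : ℕ) : IsBoundedAtImInfty (qN N M) := by
  have : Tendsto (qN N M) atImInfty (𝓝 ((0 : ℂ) ^ M)) :=
    (qParam_tendsto_atImInfty (N_pos N)).pow M
  exact this.isBigO_one ℝ

omit [NeZero N] in
theorem mdifferentiable_qN (M : ℕ) : MDiff (qN N M) := by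
  rw [UpperHalfPlane.mdifferentiable_iff]
  have : Differentiable ℂ (fun z => Periodic.qParam (N : ℝ) z ^ M) :=
    Periodic.differentiable_qParam.pow M
  refine this.differentiableOn.congr fun z hz => ?_
  simp [qN, ofComplex_apply_of_im_pos hz]

/-- Periodic of period `N`, holomorphic, and bounded at `∞`. -/
structure IsBdd (g : ℍ → ℂ) : Prop where
  hol : MDiff g
  per : Periodic (g ∘ ofComplex) ((N : ℝ) : ℂ)
  bdd : IsBoundedAtImInfty g

omit [NeZero N] in
theorem periodic_iff {g : ℍ → ℂ} :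
    Periodic (g ∘ ofComplex) ((N : ℝ) : ℂ) ↔ ∀ τ : ℍ, g ((N : ℝ) +ᵥ τ) = g τ := by
  constructor
  · intro h τ
    have := h (τ : ℂ)
    simp only [Function.comp_apply, ofComplex_apply] at this
    rw [← this]
    congr 1
    rw [show (τ : ℂ) + ((N : ℝ) : ℂ) = (((N : ℝ) +ᵥ τ : ℍ) : ℂ) by
      simp [coe_vadd, add_comm], ofComplex_apply]
  · intro h z
    rcases lt_or_ge 0 z.im with hz | hz
    · have := h ⟨z, hz⟩
      simp only [Function.comp_apply]
      rw [ofComplex_apply_of_im_pos hz, ofComplex_apply_of_im_pos (by simpa using hz)]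
      convert this using 2
      apply UpperHalfPlane.ext
      simp [coe_vadd, add_comm]
    · simp only [Function.comp_apply]
      rw [ofComplex_apply_of_im_nonpos hz, ofComplex_apply_of_im_nonpos (by simpa using hz)]

theorem qN_periodic (M : ℕ) (τ : ℍ) : qN N M ((N : ℝ) +ᵥ τ) = qN N M τ := by
  rw [qN, qN, coe_vadd, add_comm, Complex.ofReal_natCast, qParam_periodic]

theorem isBdd_qN (M : ℕ) : IsBdd N (qN N M) :=
  ⟨mdifferentiable_qN N M, (periodic_iff N).mpr (qN_periodic N M), isBoundedAtImInfty_qN N M⟩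

variable {N}

omit [NeZero N] in
/-- Products of periodic bounded functions are periodic bounded. -/
theorem IsBdd.mul {f g : ℍ → ℂ} (hf : IsBdd N f) (hg : IsBdd N g) : IsBdd N (f * g) :=
  ⟨hf.hol.mul hg.hol, (periodic_iff N).mpr fun τ => by
    simp [(periodic_iff N).mp hf.per τ, (periodic_iff N).mp hg.per τ], hf.bdd.mul hg.bdd⟩

omit [NeZero N] in
/-- Sums of periodic bounded functions are periodic bounded. -/
theorem IsBdd.add {f g : ℍ → ℂ} (hf : IsBdd N f) (hg : IsBdd N g) : IsBdd N (f + g) :=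
  ⟨hf.hol.add hg.hol, (periodic_iff N).mpr fun τ => by
    simp [(periodic_iff N).mp hf.per τ, (periodic_iff N).mp hg.per τ], hf.bdd.add hg.bdd⟩

omit [NeZero N] in
/-- Constants are periodic bounded. -/
theorem IsBdd.const (c : ℂ) : IsBdd N (fun _ => c) :=
  ⟨mdifferentiable_const, (periodic_iff N).mpr fun _ => rfl, const_boundedAtFilter _ c⟩

/-- The cusp function of a periodic bounded function is analytic at `0`. -/
theorem IsBdd.analyticAt {f : ℍ → ℂ} (hf : IsBdd N f) :
    AnalyticAt ℂ (cuspFunction (N : ℝ) f) 0 :=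
  analyticAt_cuspFunction_zero (N_pos N) hf.per hf.hol hf.bdd

variable (N)

/-- Holomorphic, `N`-periodic and meromorphic at `∞`. -/
def IsMero (f : ℍ → ℂ) : Prop :=
  MDiff f ∧ (∀ τ : ℍ, f ((N : ℝ) +ᵥ τ) = f τ) ∧ ∃ M, IsBoundedAtImInfty (f * qN N M)

omit [NeZero N] in
theorem qN_add (M M' : ℕ) : qN N (M + M') = qN N M * qN N M' := funext fun _ => pow_add _ _ _

omit [NeZero N] in
theorem qN_zero : qN N 0 = 1 := funext fun _ => pow_zero _

variable {N}

/-- Multiplying by a power of the parameter makes a meromorphic function bounded. -/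
theorem IsMero.isBdd {f : ℍ → ℂ} (hf : IsMero N f) {M : ℕ}
    (hM : IsBoundedAtImInfty (f * qN N M)) : IsBdd N (f * qN N M) :=
  ⟨hf.1.mul (mdifferentiable_qN N M), (periodic_iff N).mpr fun τ => by
    simp [hf.2.1 τ, qN_periodic N M τ], hM⟩

theorem IsMero.bdd_mono {f : ℍ → ℂ} {M M' : ℕ} (h : M ≤ M')
    (hM : IsBoundedAtImInfty (f * qN N M)) : IsBoundedAtImInfty (f * qN N M') := by
  rw [← Nat.add_sub_cancel' h, qN_add, ← mul_assoc]
  exact hM.mul (isBoundedAtImInfty_qN N _)

variable (N)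

/-- The `ℂ`-algebra of functions meromorphic at `∞`. -/
def meroSubring : Subalgebra ℂ (ℍ → ℂ) where
  carrier := {f | IsMero N f}
  mul_mem' := by
    rintro f g ⟨hf, pf, a, ha⟩ ⟨hg, pg, b, hb⟩
    refine ⟨hf.mul hg, fun τ => by simp [pf τ, pg τ], a + b, ?_⟩
    rw [qN_add, show f * g * (qN N a * qN N b) = (f * qN N a) * (g * qN N b) by ring]
    exact ha.mul hb
  one_mem' := ⟨mdifferentiable_const, fun _ => rfl, 0, by
    rw [qN_zero, mul_one]; exact const_boundedAtFilter _ 1⟩
  add_mem' := by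
    rintro f g ⟨hf, pf, a, ha⟩ ⟨hg, pg, b, hb⟩
    refine ⟨hf.add hg, fun τ => by simp [pf τ, pg τ], max a b, ?_⟩
    rw [add_mul]
    exact (IsMero.bdd_mono (le_max_left a b) ha).add (IsMero.bdd_mono (le_max_right a b) hb)
  zero_mem' := ⟨mdifferentiable_const, fun _ => rfl, 0, by
    rw [qN_zero, mul_one]; exact const_boundedAtFilter _ 0⟩
  algebraMap_mem' c := ⟨mdifferentiable_const, fun _ => rfl, 0, by
    rw [qN_zero, mul_one]; exact const_boundedAtFilter _ c⟩

theorem qExpansion_coeff_unique' {h : ℝ} {f : ℍ → ℂ} {c : ℕ → ℂ} (hh : 0 < h)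
    (hf : AnalyticAt ℂ (cuspFunction h f) 0)
    (hs : ∀ τ : ℍ, HasSum (fun m => c m • Periodic.qParam h (τ : ℂ) ^ m) (f τ)) (m : ℕ) :
    c m = (qExpansion h f).coeff m := by
  have h1 := (hasFPowerSeriesOnBall_cuspFunction hh hf hs).hasFPowerSeriesAt
  have h2 := hf.hasFPowerSeriesAt
  have h3 := congrArg (fun p : FormalMultilinearSeries ℂ ℂ ℂ => p.coeff m)
    (h1.eq_formalMultilinearSeries h2)
  simp only [FormalMultilinearSeries.coeff_ofScalars] at h3
  rw [qExpansion_coeff, h3]
  ring_nf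

theorem qExpansion_qN (M : ℕ) :
    qExpansion (N : ℝ) (qN N M) = PowerSeries.X ^ M := by
  have hsum : ∀ τ : ℍ, HasSum
      (fun m => (if m = M then (1 : ℂ) else 0) • Periodic.qParam (N : ℝ) (τ : ℂ) ^ m)
      (qN N M τ) := by
    intro τ
    have : HasSum (fun m => (if m = M then (1 : ℂ) else 0) • Periodic.qParam (N : ℝ) (τ : ℂ) ^ m)
        ((if M = M then (1 : ℂ) else 0) • Periodic.qParam (N : ℝ) (τ : ℂ) ^ M) :=
      hasSum_single M fun m hm => by rw [if_neg hm, zero_smul]
    rwa [if_pos rfl, one_smul] at this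
  refine PowerSeries.ext fun m => ?_
  rw [PowerSeries.coeff_X_pow]
  exact (qExpansion_coeff_unique' (N_pos N) (isBdd_qN N M).analyticAt hsum m).symm

/-- Laurent expansion in `q_N` for a chosen pole bound. -/
def expN (f : ℍ → ℂ) (M : ℕ) : LaurentSeries ℂ :=
  HahnSeries.single (-(M : ℤ)) 1
    * HahnSeries.ofPowerSeries ℤ ℂ (qExpansion (N : ℝ) (f * qN N M))

variable {N}

theorem single_mul_X_pow (a : ℤ) (k : ℕ) :
    HahnSeries.single a (1 : ℂ) * HahnSeries.ofPowerSeries ℤ ℂ (PowerSeries.X ^ k)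
      = HahnSeries.single (a + k) 1 := by
  rw [HahnSeries.ofPowerSeries_X_pow, HahnSeries.single_mul_single, mul_one]

theorem expN_mono {f : ℍ → ℂ} (hf : IsMero N f) {M M' : ℕ} (h : M ≤ M')
    (hM : IsBoundedAtImInfty (f * qN N M)) : expN N f M' = expN N f M := by
  rw [expN, expN, ← Nat.add_sub_cancel' h, qN_add, ← mul_assoc,
    qExpansion_mul (hf.isBdd hM).analyticAt (isBdd_qN N _).analyticAt, qExpansion_qN,
    mul_comm (qExpansion (N : ℝ) (f * qN N M)), map_mul, ← mul_assoc, single_mul_X_pow]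
  congr 2
  push_cast
  ring

theorem expN_eq {f : ℍ → ℂ} (hf : IsMero N f) {M M' : ℕ}
    (hM : IsBoundedAtImInfty (f * qN N M)) (hM' : IsBoundedAtImInfty (f * qN N M')) :
    expN N f M = expN N f M' := by
  rcases le_total M M' with h | h
  · exact (expN_mono hf h hM).symm
  · exact expN_mono hf h hM'

/-- A pole bound of a function meromorphic at `∞`. -/
def bound (f : meroSubring N) : ℕ := f.2.2.2.choose

/-- `bound` bounds the pole order at `∞`. -/
theorem bound_spec (f : meroSubring N) : IsBoundedAtImInfty ((f : ℍ → ℂ) * qN N (bound f)) :=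
  f.2.2.2.choose_spec

theorem expN_const (c : ℂ) : expN N (fun _ => c) 0 = HahnSeries.C c := by
  have h1 : qExpansion (N : ℝ) ((fun _ : ℍ => c) * qN N 0) = PowerSeries.C c := by
    rw [qN_zero, mul_one, show (fun _ : ℍ => c) = c • (1 : ℍ → ℂ) by
      funext τ; simp, qExpansion_smul (show AnalyticAt ℂ (cuspFunction (N : ℝ) (1 : ℍ → ℂ)) 0 from
        (IsBdd.const (N := N) 1).analyticAt),
      qExpansion_one, PowerSeries.smul_eq_C_mul, mul_one]
  rw [expN, h1, HahnSeries.ofPowerSeries_C]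
  simp

/-- The expansion at `∞` as a ring map. -/
def cuspExp : meroSubring N →+* LaurentSeries ℂ where
  toFun f := expN N f (bound f)
  map_one' := by
    rw [expN_eq (1 : meroSubring N).2 (bound_spec 1) (M' := 0)
      (by rw [qN_zero, mul_one]; exact const_boundedAtFilter _ 1)]
    show expN N (fun _ => (1 : ℂ)) 0 = 1
    rw [expN_const, map_one]
  map_zero' := by
    rw [expN_eq (0 : meroSubring N).2 (bound_spec 0) (M' := 0)
      (by rw [qN_zero, mul_one]; exact const_boundedAtFilter _ 0)]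
    show expN N (fun _ => (0 : ℂ)) 0 = 0
    rw [expN_const, map_zero]
  map_mul' f g := by
    have hb : IsBoundedAtImInfty
        (((f * g : meroSubring N) : ℍ → ℂ) * qN N (bound f + bound g)) := by
      rw [qN_add, MulMemClass.coe_mul, mul_mul_mul_comm]
      exact (bound_spec f).mul (bound_spec g)
    rw [expN_eq (f * g).2 (bound_spec _) hb]
    rw [expN, expN, expN, qN_add, MulMemClass.coe_mul, mul_mul_mul_comm,
      qExpansion_mul (f.2.isBdd (bound_spec f)).analyticAt (g.2.isBdd (bound_spec g)).analyticAt,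
      map_mul, mul_mul_mul_comm (HahnSeries.single (-(bound f : ℤ)) (1 : ℂ)),
      HahnSeries.single_mul_single, mul_one]
    push_cast
    rw [neg_add]
  map_add' f g := by
    set M := max (bound f) (bound g)
    have hf := IsMero.bdd_mono (le_max_left (bound f) (bound g)) (bound_spec f)
    have hg := IsMero.bdd_mono (le_max_right (bound f) (bound g)) (bound_spec g)
    have hb : IsBoundedAtImInfty (((f + g : meroSubring N) : ℍ → ℂ) * qN N M) := by
      rw [AddMemClass.coe_add, add_mul]; exact hf.add hg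
    rw [expN_eq (f + g).2 (bound_spec _) hb, expN_eq f.2 (bound_spec f) hf,
      expN_eq g.2 (bound_spec g) hg, expN, expN, expN, AddMemClass.coe_add, add_mul,
      qExpansion_add (f.2.isBdd hf).analyticAt (g.2.isBdd hg).analyticAt, map_add, mul_add]

/-- The expansion at `∞` can be computed with any pole bound. -/
theorem cuspExp_eq (f : meroSubring N) {M : ℕ}
    (hM : IsBoundedAtImInfty ((f : ℍ → ℂ) * qN N M)) : cuspExp f = expN N f M :=
  expN_eq f.2 (bound_spec f) hM

/-- The expansion of a constant. -/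
theorem cuspExp_algebraMap (c : ℂ) :
    cuspExp (algebraMap ℂ (meroSubring N) c) = HahnSeries.C c := by
  rw [cuspExp_eq _ (M := 0) (by rw [qN_zero, mul_one]; exact const_boundedAtFilter _ c)]
  exact expN_const c

/-- The expansion at `∞` is injective. -/
theorem cuspExp_eq_zero_iff (f : meroSubring N) : cuspExp f = 0 ↔ f = 0 := by
  refine ⟨fun h => ?_, fun h => by rw [h, map_zero]⟩
  have hb := f.2.isBdd (bound_spec f)
  have h' : HahnSeries.ofPowerSeries ℤ ℂ
      (qExpansion (N : ℝ) ((f : ℍ → ℂ) * qN N (bound f))) = 0 := by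
    have : HahnSeries.single (-(bound f : ℤ)) (1 : ℂ) ≠ 0 := HahnSeries.single_ne_zero one_ne_zero
    exact (mul_eq_zero.mp h).resolve_left this
  rw [← map_zero (HahnSeries.ofPowerSeries ℤ ℂ)] at h'
  have h0 := (qExpansion_eq_zero_iff (N_pos N) hb.per hb.hol hb.bdd).mp
    (HahnSeries.ofPowerSeries_injective h')
  apply Subtype.ext
  funext τ
  have := congrFun h0 τ
  simp only [Pi.mul_apply, Pi.zero_apply, mul_eq_zero, qN_ne_zero N _ τ, or_false] at this
  exact this

variable (N)

/-- `exp (2πi m / N)`. -/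
def zetaN (m : ℕ) : ℂ := Complex.exp (2 * Real.pi * Complex.I * m / N)

theorem zetaN_zpow_eq_one_iff (m : ℕ) (k : ℤ) :
    zetaN N m ^ k = 1 ↔ (N : ℤ) ∣ m * k := by
  rw [zetaN, ← Complex.exp_int_mul, Complex.exp_eq_one_iff]
  have hN : (N : ℂ) ≠ 0 := Nat.cast_ne_zero.mpr (NeZero.ne N)
  have h2 : (2 * Real.pi * Complex.I : ℂ) ≠ 0 := Complex.two_pi_I_ne_zero
  constructor
  · rintro ⟨n, hn⟩
    refine ⟨n, ?_⟩
    have hn' : ((m * k : ℤ) : ℂ) * (2 * Real.pi * Complex.I)
        = ((N * n : ℤ) : ℂ) * (2 * Real.pi * Complex.I) := by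
      push_cast
      field_simp at hn
      linear_combination (2 * Real.pi * Complex.I) * hn
    exact_mod_cast mul_right_cancel₀ h2 hn'
  · rintro ⟨n, hn⟩
    refine ⟨n, ?_⟩
    have : (m : ℂ) * k = N * n := by exact_mod_cast hn
    field_simp
    linear_combination this

variable {N}

/-- Coefficients of a translate. -/
theorem coeff_expN_translate {f g : ℍ → ℂ} (hf : IsMero N f) (hg : IsMero N g) (i : ℕ)
    (hgf : ∀ τ : ℍ, g τ = f ((i : ℝ) +ᵥ τ)) {M : ℕ}
    (hfb : IsBoundedAtImInfty (f * qN N M)) (hgb : IsBoundedAtImInfty (g * qN N M)) (k : ℤ) :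
    (expN N g M).coeff k = zetaN N i ^ k * (expN N f M).coeff k := by
  rw [expN, expN, HahnSeries.coeff_single_mul, HahnSeries.coeff_single_mul, one_mul, one_mul,
    sub_neg_eq_add]
  rcases lt_or_ge (k + (M : ℤ)) 0 with hk | hk
  · have hz : ∀ p : PowerSeries ℂ,
        (HahnSeries.ofPowerSeries ℤ ℂ p).coeff (k + (M : ℤ)) = 0 := by
      intro p
      rw [HahnSeries.ofPowerSeries_apply]
      refine HahnSeries.embDomain_of_notMem_range ?_
      rintro ⟨m, hm⟩
      have hm' : (m : ℤ) = k + (M : ℤ) := hm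
      omega
    rw [hz, hz, mul_zero]
  · obtain ⟨n, hn⟩ := Int.eq_ofNat_of_zero_le hk
    rw [hn, HahnSeries.ofPowerSeries_apply_coeff, HahnSeries.ofPowerSeries_apply_coeff]
    have hk' : k = ((n : ℕ) : ℤ) - M := by omega
    rw [hk']
    suffices h : ∀ τ : ℍ, HasSum (fun n : ℕ => (zetaN N i ^ ((n : ℤ) - M)
        * (qExpansion (N : ℝ) (f * qN N M)).coeff n) • Periodic.qParam (N : ℝ) (τ : ℂ) ^ n)
        ((g * qN N M) τ) by
      exact (qExpansion_coeff_unique' (N_pos N) (hg.isBdd hgb).analyticAt h n).symm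
    intro τ
    have hs := (hasSum_qExpansion (N_pos N) (hf.isBdd hfb).per (hf.isBdd hfb).hol hfb
      ((i : ℝ) +ᵥ τ)).mul_left (zetaN N i ^ (-(M : ℤ)))
    have hq : Periodic.qParam (N : ℝ) (((i : ℝ) +ᵥ τ : ℍ) : ℂ)
        = Periodic.qParam (N : ℝ) (τ : ℂ) * zetaN N i := by
      rw [coe_vadd, add_comm, Complex.ofReal_natCast, qParam_add_nat, zetaN]
    have hz : zetaN N i ≠ 0 := Complex.exp_ne_zero _
    have e1 : (fun n : ℕ => (zetaN N i ^ ((n : ℤ) - M)
          * (qExpansion (N : ℝ) (f * qN N M)).coeff n) • Periodic.qParam (N : ℝ) (τ : ℂ) ^ n)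
        = fun n : ℕ => zetaN N i ^ (-(M : ℤ)) * ((qExpansion (N : ℝ) (f * qN N M)).coeff n
          • Periodic.qParam (N : ℝ) (((i : ℝ) +ᵥ τ : ℍ) : ℂ) ^ n) := by
      funext n
      rw [hq, smul_eq_mul, smul_eq_mul, mul_pow, sub_eq_add_neg, zpow_add₀ hz, zpow_natCast]
      ring
    have e2 : (g * qN N M) τ = zetaN N i ^ (-(M : ℤ)) * (f * qN N M) ((i : ℝ) +ᵥ τ) := by
      rw [Pi.mul_apply, Pi.mul_apply, hgf, qN, qN, hq, mul_pow, zpow_neg, zpow_natCast]
      field_simp
    rw [e1, e2]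
    exact hs

/-- Translation does not change the order; invariance under translation by `i` gives
`N ∣ i * order`. -/
theorem order_cuspExp_translate (f g : meroSubring N) (i : ℕ)
    (hgf : ∀ τ : ℍ, (g : ℍ → ℂ) τ = (f : ℍ → ℂ) ((i : ℝ) +ᵥ τ)) :
    (cuspExp g).order = (cuspExp f).order ∧
      (f = g → f ≠ 0 → (N : ℤ) ∣ i * (cuspExp f).order) := by
  set M := max (bound f) (bound g)
  have hf := IsMero.bdd_mono (le_max_left (bound f) (bound g)) (bound_spec f)
  have hg := IsMero.bdd_mono (le_max_right (bound f) (bound g)) (bound_spec g)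
  have hc : ∀ k, (cuspExp g).coeff k = zetaN N i ^ k * (cuspExp f).coeff k := by
    intro k
    rw [cuspExp_eq f hf, cuspExp_eq g hg]
    exact coeff_expN_translate f.2 g.2 i hgf hf hg k
  have hz : ∀ k : ℤ, zetaN N i ^ k ≠ 0 := fun k => zpow_ne_zero _ (Complex.exp_ne_zero _)
  constructor
  · by_cases h0 : cuspExp f = 0
    · have : cuspExp g = 0 := by ext k; simp [hc, h0]
      rw [this, h0]
    · have hg0 : cuspExp g ≠ 0 := fun h => h0 (by
        ext k; simpa [h, hz k] using (hc k).symm)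
      have hl := HahnSeries.leadingCoeff_ne_zero.mpr h0
      have hl' := HahnSeries.leadingCoeff_ne_zero.mpr hg0
      rw [HahnSeries.leadingCoeff_eq] at hl hl'
      refine le_antisymm (HahnSeries.order_le_of_coeff_ne_zero ?_)
        (HahnSeries.order_le_of_coeff_ne_zero ?_)
      · rw [hc]; exact mul_ne_zero (hz _) hl
      · intro h; rw [hc, h, mul_zero] at hl'; exact hl' rfl
  · intro hfg hf0
    subst hfg
    have h0 : cuspExp f ≠ 0 := fun h => hf0 ((cuspExp_eq_zero_iff f).mp h)
    have hl := HahnSeries.leadingCoeff_ne_zero.mpr h0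
    rw [HahnSeries.leadingCoeff_eq] at hl
    have hk := hc (cuspExp f).order
    rw [← zetaN_zpow_eq_one_iff]
    exact mul_right_cancel₀ hl (hk.symm.trans (one_mul _).symm)

end Fermat.Agent.ModCurveGenus
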