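import Fermat.Agent.ModularFunctionField.LevelOne
import Fermat.Agent.ModCurveGenus.Cusp
import Fermat.Agent.ModCurveGenus.FiberCount

/-!
# The functions `τ ↦ j(d γ τ)`

Invariance under `Γ₀(N)`, behaviour at `∞` (`jd_smul_order`), and separation of the cosets of
`Γ₀(N)` (`mem_gamma0_of_jd_smul_eq`).
-/

set_option autoImplicit false

noncomputable section

open UpperHalfPlane Filter Topology Function
open scoped Manifold MatrixGroups
open Fermat.Agent.ModularFunctionField (jFun hasExp_jFun jFun_invariant mdiff_jFun HasExp)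

namespace Fermat.Agent.ModCurveGenus

/-- `τ ↦ (a τ + b) / e`. -/
def affine (a e : ℕ) (ha : 0 < a) (he : 0 < e) (b : ℤ) (τ : ℍ) : ℍ :=
  ⟨((a : ℂ) * τ + b) / e, by
    rw [Complex.div_natCast_im]
    simp
    positivity⟩

@[simp] theorem coe_affine (a e : ℕ) (ha : 0 < a) (he : 0 < e) (b : ℤ) (τ : ℍ) :
    (affine a e ha he b τ : ℂ) = ((a : ℂ) * τ + b) / e := rfl

/-- `τ ↦ d τ`. -/
def scale (d : ℕ) [NeZero d] (τ : ℍ) : ℍ :=
  affine d 1 (Nat.pos_of_ne_zero (NeZero.ne d)) one_pos 0 τ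

/-- `scale d` multiplies by `d`. -/
@[simp] theorem coe_scale (d : ℕ) [NeZero d] (τ : ℍ) : (scale d τ : ℂ) = d * τ := by
  simp [scale]

/-- `τ ↦ j(dτ)`. -/
def jd (d : ℕ) [NeZero d] (τ : ℍ) : ℂ := jFun (scale d τ)

/-- The action of `SL(2, ℤ)` as a Möbius transformation. -/
theorem sl2_smul_coe (g : SL(2, ℤ)) (τ : ℍ) :
    ((g • τ : ℍ) : ℂ) = ((g 0 0 : ℂ) * τ + g 0 1) / ((g 1 0 : ℂ) * τ + g 1 1) := by
  rw [coe_specialLinearGroup_apply]
  simp

/-- The denominator of a Möbius transformation does not vanish. -/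
theorem sl2_denom_ne_zero (g : SL(2, ℤ)) (τ : ℍ) : (g 1 0 : ℂ) * τ + g 1 1 ≠ 0 := by
  have := denom_ne_zero (g : GL (Fin 2) ℝ) τ
  rwa [ModularGroup.denom_apply] at this

/-- `j(dτ)` is invariant under `Γ₀(N)` for `d ∣ N`. -/
theorem jd_invariant {N d : ℕ} [NeZero d] (hd : d ∣ N) {g : SL(2, ℤ)}
    (hg : g ∈ CongruenceSubgroup.Gamma0 N) (τ : ℍ) : jd d (g • τ) = jd d τ := by
  rw [CongruenceSubgroup.Gamma0_mem, ZMod.intCast_zmod_eq_zero_iff_dvd] at hg
  obtain ⟨k, hk⟩ := (Int.natCast_dvd_natCast.mpr hd).trans hg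
  have hdet : g 0 0 * g 1 1 - g 0 1 * g 1 0 = 1 := by
    have := g.det_coe
    rwa [Matrix.det_fin_two] at this
  set g' : SL(2, ℤ) := ⟨!![g 0 0, d * g 0 1; k, g 1 1], by
    rw [Matrix.det_fin_two_of]; rw [hk] at hdet; linear_combination hdet⟩ with hg'
  have : scale d (g • τ) = g' • scale d τ := by
    apply UpperHalfPlane.ext
    rw [coe_scale, sl2_smul_coe, sl2_smul_coe, coe_scale]
    have e00 : g' 0 0 = g 0 0 := rfl
    have e01 : g' 0 1 = d * g 0 1 := rfl
    have e10 : g' 1 0 = k := rfl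
    have e11 : g' 1 1 = g 1 1 := rfl
    rw [e00, e01, e10, e11, hk]
    push_cast
    rw [mul_div_assoc']
    congr 1 <;> ring
  rw [jd, jd, this, jFun_invariant]

/-- Hermite normal form of `(d 0; 0 1) g`. -/
theorem exists_hnf (d : ℕ) [NeZero d] (g : SL(2, ℤ)) :
    ∃ (a e : ℕ) (ha : 0 < a) (he : 0 < e) (b : ℤ), a * e = d ∧ (a : ℤ) ∣ g 1 0 ∧
      ∀ τ : ℍ, jd d (g • τ) = jFun (affine a e ha he b τ) := by
  have hdet : g 0 0 * g 1 1 - g 0 1 * g 1 0 = 1 := by
    have := g.det_coe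
    rwa [Matrix.det_fin_two] at this
  have hd0 : (d : ℤ) ≠ 0 := Int.natCast_ne_zero.mpr (NeZero.ne d)
  set x : ℤ := d * g 0 0 with hx
  set y : ℤ := g 1 0 with hy
  set a : ℕ := Int.gcd x y with ha'
  have ha : 0 < a := by
    rw [ha', Int.gcd_pos_iff]
    by_contra hcon
    push Not at hcon
    obtain ⟨h1, h2⟩ := hcon
    rcases mul_eq_zero.mp h1 with h | h
    · exact hd0 h
    · rw [h, h2] at hdet; simp at hdet
  obtain ⟨x', hxa⟩ : (a : ℤ) ∣ x := Int.gcd_dvd_left x y
  obtain ⟨y', hya⟩ : (a : ℤ) ∣ y := Int.gcd_dvd_right x y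
  set u := Int.gcdA x y with hu
  set v := Int.gcdB x y with hv
  have hbez : x' * u + y' * v = 1 := by
    have h := Int.gcd_eq_gcd_ab x y
    rw [← ha', ← hu, ← hv, hxa, hya] at h
    have : (a : ℤ) * (x' * u + y' * v) = (a : ℤ) * 1 := by linear_combination -h
    exact mul_left_cancel₀ (by omega) this
  set b : ℤ := u * (d * g 0 1) + v * g 1 1 with hb
  set e' : ℤ := x' * g 1 1 - y' * (d * g 0 1) with he'
  have hae : (a : ℤ) * e' = d := by
    rw [he']
    have h1 : (a : ℤ) * x' = d * g 0 0 := hxa.symm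
    have h2 : (a : ℤ) * y' = g 1 0 := hya.symm
    linear_combination (g 1 1) * h1 - (d * g 0 1) * h2 + (d : ℤ) * hdet
  have he0 : 0 < e' := by
    have h1 : (0 : ℤ) < (a : ℤ) * e' := by rw [hae]; omega
    exact pos_of_mul_pos_right h1 (by positivity)
  lift e' to ℕ using he0.le with e
  refine ⟨a, e, ha, by exact_mod_cast he0, b, by exact_mod_cast hae, ⟨y', hya⟩, fun τ => ?_⟩
  set γ : SL(2, ℤ) := ⟨!![x', -v; y', u], by
    rw [Matrix.det_fin_two_of]; linear_combination hbez⟩ with hγ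
  have : scale d (g • τ) = γ • affine a e ha (by exact_mod_cast he0) b τ := by
    apply UpperHalfPlane.ext
    rw [coe_scale, sl2_smul_coe, sl2_smul_coe, coe_affine]
    have e00 : γ 0 0 = x' := rfl
    have e01 : γ 0 1 = -v := rfl
    have e10 : γ 1 0 = y' := rfl
    have e11 : γ 1 1 = u := rfl
    rw [e00, e01, e10, e11, ← hy]
    have hec : (e : ℂ) ≠ 0 := by exact_mod_cast he0.ne'
    have hA : (x' : ℂ) * a = d * g 0 0 := by
      rw [mul_comm]; exact_mod_cast hxa.symm
    have hB : (y' : ℂ) * a = y := by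
      rw [mul_comm]; exact_mod_cast hya.symm
    have hC : (x' : ℂ) * b - v * e = d * g 0 1 := by
      have : x' * b - v * (e : ℤ) = d * g 0 1 := by
        rw [hb, he']; linear_combination ((d : ℤ) * g 0 1) * hbez
      exact_mod_cast this
    have hD : (y' : ℂ) * b + u * e = g 1 1 := by
      have : y' * b + u * (e : ℤ) = g 1 1 := by
        rw [hb, he']; linear_combination (g 1 1) * hbez
      exact_mod_cast this
    have hnum : (x' : ℂ) * (((a : ℂ) * τ + b) / e) + ((-v : ℤ) : ℂ)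
        = (d * ((g 0 0 : ℂ) * τ + g 0 1)) / e := by
      field_simp
      push_cast
      linear_combination (τ : ℂ) * hA + hC
    have hden : (y' : ℂ) * (((a : ℂ) * τ + b) / e) + u
        = ((y : ℂ) * τ + g 1 1) / e := by
      field_simp
      linear_combination (τ : ℂ) * hB + hD
    rw [hnum, hden, div_div_div_cancel_right₀ hec, mul_div_assoc]
  rw [jd, this, jFun_invariant]

variable (N : ℕ) [NeZero N]

theorem jFun_add_int (z : ℍ) (n : ℤ) : jFun ((n : ℝ) +ᵥ z) = jFun z := by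
  rw [← UpperHalfPlane.modular_T_zpow_smul, jFun_invariant]

theorem jqModC_mul_single :
    ModularCurve.jqModC ℂ * HahnSeries.single (1 : ℤ) 1
      = HahnSeries.ofPowerSeries ℤ ℂ (ModularCurve.jNum.map (Int.castRingHom ℂ)) := by
  rw [ModularCurve.jqModC, mul_comm, ← mul_assoc, HahnSeries.single_mul_single]
  simp

/-- `j q → 1` at `i∞`. -/
theorem tendsto_jFun_mul_q :
    Tendsto (fun z : ℍ => jFun z * Periodic.qParam (1 : ℝ) z) atImInfty (𝓝 1) := by
  have h := ((hasExp_jFun.mul (HasExp.single 1 1 1)).congr_series jqModC_mul_single).tendsto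
    one_ne_zero fun n hn => ModularCurve.ofPowerSeries_coeff_of_neg _ hn
  rw [show (0 : ℤ) = ((0 : ℕ) : ℤ) from rfl, HahnSeries.ofPowerSeries_apply_coeff,
    PowerSeries.coeff_map, PowerSeries.coeff_zero_eq_constantCoeff,
    ModularCurve.constantCoeff_jNum] at h
  simpa using h

/-- Affine maps preserve `i∞`. -/
theorem tendsto_affine (a e : ℕ) (ha : 0 < a) (he : 0 < e) (b : ℤ) :
    Tendsto (affine a e ha he b) atImInfty atImInfty := by
  refine tendsto_comap_iff.mpr ?_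
  have h : ∀ τ : ℍ, (affine a e ha he b τ).im = (a : ℝ) / e * τ.im := fun τ => by
    show (((a : ℂ) * τ + b) / e).im = _
    rw [Complex.div_natCast_im]
    simp
    ring
  have : Tendsto (fun τ : ℍ => (a : ℝ) / e * τ.im) atImInfty atTop :=
    tendsto_comap.const_mul_atTop (by positivity)
  exact this.congr fun τ => (h τ).symm

/-- `j` composed with an affine map is holomorphic. -/
theorem mdiff_jFun_affine (a e : ℕ) (ha : 0 < a) (he : 0 < e) (b : ℤ) :
    MDiff (fun τ => jFun (affine a e ha he b τ)) := by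
  rw [UpperHalfPlane.mdifferentiable_iff]
  have h := UpperHalfPlane.mdifferentiable_iff.mp mdiff_jFun
  have him : ∀ z ∈ upperHalfPlaneSet, ((a : ℂ) * z + b) / e ∈ upperHalfPlaneSet := fun z hz =>
    (affine a e ha he b ⟨z, hz⟩).im_pos
  refine (h.comp (f := fun z : ℂ => ((a : ℂ) * z + b) / e)
    (((differentiable_id.const_mul _).add_const _).div_const _).differentiableOn him).congr
    fun z hz => ?_
  simp only [Function.comp_apply]
  rw [ofComplex_apply_of_im_pos hz, ofComplex_apply_of_im_pos (him z hz)]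
  rfl

/-- Behaviour of `j((aτ+b)/e)` at `∞`, in `q_N`. -/
theorem tendsto_jFun_affine_mul_qN {a e k : ℕ} (ha : 0 < a) (he : 0 < e) (b : ℤ)
    (hk : N = e * k) :
    Tendsto ((fun τ => jFun (affine a e ha he b τ)) * qN N (a * k)) atImInfty
      (𝓝 (Complex.exp (-(2 * Real.pi * Complex.I * b / e)))) := by
  set c := Complex.exp (-(2 * Real.pi * Complex.I * b / e)) with hc
  have h := ((tendsto_jFun_mul_q).comp (tendsto_affine a e ha he b)).mul_const c
  rw [one_mul] at h
  refine h.congr fun τ => ?_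
  simp only [Function.comp_apply, Pi.mul_apply, qN]
  rw [mul_assoc]
  congr 1
  have hN : (N : ℂ) = (e : ℂ) * k := by rw [hk]; push_cast; ring
  have hk0 : (k : ℂ) ≠ 0 := by
    intro h0; rw [h0, mul_zero] at hN
    exact (NeZero.ne N) (by exact_mod_cast hN)
  have he0 : (e : ℂ) ≠ 0 := by exact_mod_cast he.ne'
  simp only [Periodic.qParam, coe_affine, hc]
  rw [← Complex.exp_add, ← Complex.exp_nat_mul]
  congr 1
  push_cast
  rw [hN]
  field_simp
  ring

omit [NeZero N] in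
theorem periodic_jFun_affine {a e k : ℕ} (ha : 0 < a) (he : 0 < e) (b : ℤ) (hk : N = e * k)
    (τ : ℍ) :
    jFun (affine a e ha he b ((N : ℝ) +ᵥ τ)) = jFun (affine a e ha he b τ) := by
  have : affine a e ha he b ((N : ℝ) +ᵥ τ)
      = (((a * k : ℕ) : ℤ) : ℝ) +ᵥ affine a e ha he b τ := by
    apply UpperHalfPlane.ext
    simp only [coe_affine, coe_vadd]
    rw [hk]
    have he0 : (e : ℂ) ≠ 0 := by exact_mod_cast he.ne'
    push_cast
    field_simp
    ring
  rw [this, jFun_add_int]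

/-- `j(d g τ)` is meromorphic at `∞` in `q_N`, with pole order `a N / e`. -/
theorem jd_smul_cusp {d : ℕ} [NeZero d] (hd : d ∣ N) (g : SL(2, ℤ)) :
    ∃ a e : ℕ, a * e = d ∧ (a : ℤ) ∣ g 1 0 ∧ IsMero N (fun τ => jd d (g • τ)) ∧
      ∃ c : ℂ, c ≠ 0 ∧
        Tendsto ((fun τ => jd d (g • τ)) * qN N (a * (N / e))) atImInfty (𝓝 c) := by
  obtain ⟨a, e, ha, he, b, hae, hdvd, h⟩ := exists_hnf d g
  have hk : N = e * (N / e) := (Nat.mul_div_cancel' ((Dvd.intro_left a hae).trans hd)).symm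
  have hlim := tendsto_jFun_affine_mul_qN N ha he b hk
  have hfun : (fun τ => jd d (g • τ)) = fun τ => jFun (affine a e ha he b τ) := funext h
  refine ⟨a, e, hae, hdvd, ?_, _, Complex.exp_ne_zero _, by rw [hfun]; exact hlim⟩
  rw [hfun]
  exact ⟨mdiff_jFun_affine a e ha he b, periodic_jFun_affine N ha he b hk,
    a * (N / e), hlim.isBigO_one ℝ⟩

/-- A non zero limit of `f q^M` at `i∞` gives order `-M`. -/
theorem order_cuspExp_of_tendsto (f : meroSubring N) {M : ℕ} {c : ℂ} (hc : c ≠ 0)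
    (h : Tendsto ((f : ℍ → ℂ) * qN N M) atImInfty (𝓝 c)) :
    (cuspExp f).order = -(M : ℤ) := by
  have hb : IsBoundedAtImInfty ((f : ℍ → ℂ) * qN N M) := h.isBigO_one ℝ
  have hbd := f.2.isBdd hb
  rw [cuspExp_eq f hb, expN]
  have hcc : PowerSeries.constantCoeff (qExpansion (N : ℝ) ((f : ℍ → ℂ) * qN N M)) = c := by
    rw [← PowerSeries.coeff_zero_eq_constantCoeff,
      qExpansion_coeff_zero (N_pos N) hbd.analyticAt hbd.per]
    exact h.limUnder_eq
  have h0 := order_eq_zero_of_constantCoeff (hcc.symm ▸ hc)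
  rw [HahnSeries.order_mul (HahnSeries.single_ne_zero one_ne_zero) (fun hz => hc (by
      rw [← hcc, HahnSeries.ofPowerSeries_injective (hz.trans (map_zero _).symm)]; simp)),
    HahnSeries.order_single one_ne_zero, h0, add_zero]

theorem jd_smul_order {d : ℕ} [NeZero d] (hd : d ∣ N) (g : SL(2, ℤ))
    (hm : (fun τ => jd d (g • τ)) ∈ meroSubring N) :
    ∃ a e : ℕ, a * e = d ∧ (a : ℤ) ∣ g 1 0 ∧
      (cuspExp (⟨fun τ => jd d (g • τ), hm⟩ : meroSubring N)).order = -((a * (N / e) : ℕ) : ℤ) := by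
  obtain ⟨a, e, hae, hdvd, -, c, hc, hlim⟩ := jd_smul_cusp N hd g
  exact ⟨a, e, hae, hdvd, order_cuspExp_of_tendsto N _ hc hlim⟩

/-- The functions `j(N g τ)` separate `Γ₀(N)`-cosets. -/
theorem mem_gamma0_of_jd_smul_eq {g : SL(2, ℤ)} (h : ∀ τ : ℍ, jd N (g • τ) = jd N τ) :
    g ∈ CongruenceSubgroup.Gamma0 N := by
  have hfun : (fun τ => jd N (g • τ)) = jd N := funext h
  have hm : (fun τ => jd N (g • τ)) ∈ meroSubring N :=
    (jd_smul_cusp N dvd_rfl g).choose_spec.choose_spec.2.2.1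
  obtain ⟨a, e, hae, hdvd, ho⟩ := jd_smul_order N dvd_rfl g hm
  have hlim : Tendsto ((fun τ => jd N (g • τ)) * qN N (N * N)) atImInfty
      (𝓝 (Complex.exp (-(2 * Real.pi * Complex.I * (0 : ℤ) / (1 : ℕ))))) := by
    rw [hfun]
    exact tendsto_jFun_affine_mul_qN N (Nat.pos_of_ne_zero (NeZero.ne N)) one_pos 0
      (one_mul N).symm
  have ho' := order_cuspExp_of_tendsto N ⟨_, hm⟩ (Complex.exp_ne_zero _) hlim
  rw [ho] at ho'
  have he : 0 < e := Nat.pos_of_ne_zero fun h0 => NeZero.ne N (by rw [← hae, h0, mul_zero])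
  have hNe : N / e = a := by
    apply Nat.div_eq_of_eq_mul_left he
    exact hae.symm
  have haa : a * a = N * N := by rw [hNe] at ho'; exact_mod_cast neg_inj.mp ho'
  have haN : a = N := Nat.mul_self_inj.mp haa
  rw [CongruenceSubgroup.Gamma0_mem, ZMod.intCast_zmod_eq_zero_iff_dvd, ← haN]
  exact hdvd

end Fermat.Agent.ModCurveGenus
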