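import Fermat.Prelude.Def_ModularCurve_ArithmeticGalois
import Mathlib.Analysis.Complex.Polynomial.Basic
import Fermat.Agent.ModularFunctionField.InvariantPoly
import Fermat.Agent.ModCurveGenus.Translates
import Fermat.Agent.Gamma0Cosets.Basic

/-!
# The function field of `X₀(N)` as functions on the upper half plane

Polynomials in the generators `j(q^d)` of the function field over `ℚ̄` are identified with
functions on the upper half plane (`eta`) and conjugated by the cosets of `Γ₀(N)` (`fn`).
-/

set_option autoImplicit false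

noncomputable section

open UpperHalfPlane Filter Topology CongruenceSubgroup
open scoped Manifold MatrixGroups
open Fermat.Agent.ModularFunctionField (jFun hasExp_jFun jFun_invariant mdiff_jFun HasExp)
open ModularCurve (coeffEmb coeffMap)

namespace Fermat.Agent.ModCurveGenus

/-- `ℚ̄`. -/
abbrev Qb : Type := AlgebraicClosure ℚ

/-- A fixed embedding `ℚ̄ → ℂ`. -/
def iotaC : Qb →+* ℂ :=
  haveI : Algebra.IsAlgebraic ℚ Qb := AlgebraicClosure.isAlgebraic ℚ
  (IsAlgClosed.lift (R := ℚ) (S := Qb) (M := ℂ)).toRingHom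

/-- The embedding of the constants is injective. -/
theorem iotaC_injective : Function.Injective iotaC := iotaC.injective

/-- The function field. -/
abbrev FN (N : ℕ) : Type := ↥(ModularCurve.modularFunctionFieldBar N)

variable (N : ℕ) [NeZero N]

/-- Divisors of `N`. -/
abbrev Dvs : Type := {d : ℕ // d ∈ N.divisors}

/-- An index divides `N`. -/
theorem Dvs.dvd {N : ℕ} [NeZero N] (d : Dvs N) : d.1 ∣ N := (Nat.mem_divisors.mp d.2).1

instance (d : Dvs N) : NeZero d.1 := ⟨(Nat.pos_of_mem_divisors d.2).ne'⟩

/-- `1` as a divisor of `N`. -/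
def oneD : Dvs N := ⟨1, Nat.one_mem_divisors.mpr (NeZero.ne N)⟩
/-- `N` as a divisor of `N`. -/
def topD : Dvs N := ⟨N, Nat.mem_divisors_self N (NeZero.ne N)⟩

/-- Polynomials in variables indexed by the divisors of `N`. -/
abbrev PN : Type := MvPolynomial (Dvs N) Qb

/-- The series `j(q^d)`. -/
def genS (d : Dvs N) : LaurentSeries Qb := coeffEmb Qb (ModularCurve.qExpand ℚ d.1 ModularCurve.jq)

theorem genS_mem (d : Dvs N) : genS N d ∈ ModularCurve.modularFunctionFieldBar N :=
  ModularCurve.coeffEmb_mem_laurentBaseChange Qb (ModularCurve.jqd_mem_full N d.dvd)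

/-- `j(q^d)` in the function field. -/
def gen (d : Dvs N) : FN N := ⟨genS N d, genS_mem N d⟩

/-- `j` in the function field. -/
def jEl : FN N := gen N (oneD N)

/-- Polynomials in the `j(q^d)` as elements of the function field. -/
def ev : PN N →ₐ[Qb] FN N := MvPolynomial.aeval (gen N)

/-- The function field is generated by the series `genS`. -/
theorem bar_eq_adjoin :
    ModularCurve.modularFunctionFieldBar N = IntermediateField.adjoin Qb (Set.range (genS N)) := by
  refine le_antisymm ?_ ?_
  · rw [ModularCurve.modularFunctionFieldBar, ModularCurve.laurentBaseChange,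
      IntermediateField.adjoin_le_iff]
    rintro _ ⟨x, hx, rfl⟩
    show coeffEmb Qb x ∈ IntermediateField.adjoin Qb (Set.range (genS N))
    induction hx using IntermediateField.adjoin_induction with
    | mem y hy =>
      obtain ⟨d, _, hd, rfl⟩ := hy
      exact IntermediateField.subset_adjoin Qb _
        ⟨⟨d, Nat.mem_divisors.mpr ⟨hd, NeZero.ne N⟩⟩, rfl⟩
    | algebraMap c =>
      rw [ModularCurve.algebraMap_apply_eq_single, coeffEmb, ModularCurve.coeffMap_single,
        ← ModularCurve.algebraMap_laurentSeries_eq_single]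
      exact IntermediateField.algebraMap_mem _ _
    | add a b _ _ ha hb => rw [map_add]; exact add_mem ha hb
    | inv a _ ha => rw [map_inv₀]; exact inv_mem ha
    | mul a b _ _ ha hb => rw [map_mul]; exact mul_mem ha hb
  · rw [IntermediateField.adjoin_le_iff]
    rintro _ ⟨d, rfl⟩
    exact genS_mem N d

/-- The series of the image of a polynomial. -/
theorem coe_ev (p : PN N) : ((ev N p : FN N) : LaurentSeries Qb) =
    MvPolynomial.aeval (genS N) p := by
  have : (ModularCurve.modularFunctionFieldBar N).val.comp (ev N)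
      = MvPolynomial.aeval (genS N) :=
    MvPolynomial.algHom_ext fun d => by simp [ev, gen]
  exact (AlgHom.congr_fun this p)

/-- Every element is a quotient of images of polynomials. -/
theorem exists_frac (f : FN N) : ∃ r s : PN N, ev N s ≠ 0 ∧ f = ev N r / ev N s := by
  rcases eq_or_ne f 0 with rfl | hf
  · exact ⟨0, 1, by simp, by simp⟩
  have h : (f : LaurentSeries Qb) ∈ IntermediateField.adjoin Qb (Set.range (genS N)) := by
    rw [← bar_eq_adjoin]; exact f.2
  obtain ⟨r, s, hrs⟩ := (IntermediateField.mem_adjoin_range_iff Qb _ _).mp h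
  rw [← coe_ev, ← coe_ev] at hrs
  refine ⟨r, s, fun h0 => hf (Subtype.ext ?_), Subtype.ext ?_⟩
  · rw [hrs, h0]; simp
  · rw [hrs]; rfl

/-- Evaluation as functions on `ℍ`. -/
def eta : PN N →+* (ℍ → ℂ) :=
  MvPolynomial.eval₂Hom ((algebraMap ℂ (ℍ → ℂ)).comp iotaC) (fun d => jd d.1)

omit [NeZero N] in
/-- `eta` sends a variable to `j(d τ)`. -/
theorem eta_X (d : Dvs N) : eta N (MvPolynomial.X d) = jd d.1 :=
  MvPolynomial.eval₂Hom_X' _ _ d

omit [NeZero N] in
/-- The complex series of a generator. -/
theorem coeffMap_genS (d : Dvs N) :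
    coeffMap iotaC (genS N d) = ModularCurve.qExpand ℂ d.1 (ModularCurve.jqModC ℂ) := by
  rw [genS, coeffEmb, ModularCurve.coeffMap_coeffMap, ModularFunctionField.coeffMap_qExpand',
    ← ModularCurve.jqModC_rat, ModularFunctionField.coeffMap_jqC]

theorem hasExp_jd (d : ℕ) [NeZero d] :
    HasExp 1 (jd d) (ModularCurve.qExpand ℂ d (ModularCurve.jqModC ℂ)) := by
  have h := hasExp_jFun.comp (N := 1) (scale d)
    (tendsto_affine d 1 (Nat.pos_of_ne_zero (NeZero.ne d)) one_pos 0) 1 d fun τ => by
      rw [Units.val_one, one_mul, Function.Periodic.qParam, Function.Periodic.qParam,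
        ← Complex.exp_nat_mul, coe_scale]
      congr 1
      push_cast
      ring
  rw [ModularFunctionField.subst_one] at h
  exact h

/-- `eta` of a polynomial has the series of its image as expansion. -/
theorem hasExp_eta (p : PN N) :
    HasExp 1 (eta N p) (coeffMap iotaC (ev N p : LaurentSeries Qb)) := by
  rw [coe_ev]
  induction p using MvPolynomial.induction_on with
  | C c =>
    rw [MvPolynomial.aeval_C, eta, MvPolynomial.eval₂Hom_C,
      ModularCurve.algebraMap_laurentSeries_eq_single, ModularCurve.coeffMap_single]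
    exact HasExp.const 1 (iotaC c)
  | add p q hp hq =>
    rw [map_add, map_add, map_add]
    exact hp.add hq
  | mul_X p d hp =>
    rw [map_mul, map_mul, map_mul, MvPolynomial.aeval_X, coeffMap_genS]
    rw [eta_X]
    exact hp.mul (hasExp_jd d.1)

theorem mdiff_jd (d : ℕ) [NeZero d] : MDiff (jd d) :=
  mdiff_jFun_affine d 1 (Nat.pos_of_ne_zero (NeZero.ne d)) one_pos 0

omit [NeZero N] in
theorem eta_mem_hol (p : PN N) : eta N p ∈ holSubring := by
  induction p using MvPolynomial.induction_on with
  | C c => rw [eta, MvPolynomial.eval₂Hom_C]; exact holSubring.algebraMap_mem _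
  | add p q hp hq => rw [map_add]; exact add_mem hp hq
  | mul_X p d hp =>
    rw [map_mul, eta_X]
    exact mul_mem hp (mdiff_jd d.1)

/-- `eta` and `ev` have the same kernel. -/
theorem eta_eq_zero_iff (p : PN N) : eta N p = 0 ↔ ev N p = 0 := by
  constructor
  · intro h
    have he := (hasExp_eta N p).eq_zero one_ne_zero (by rw [h])
    apply Subtype.ext
    apply ModularFunctionField.coeffMap_injective iotaC iotaC_injective
    rw [he]
    simp
  · intro h
    have he := hasExp_eta N p
    rw [h, ZeroMemClass.coe_zero, map_zero] at he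
    by_contra hne
    -- the function vanishes near `i∞`, hence everywhere
    have hz : ∀ᶠ τ : ℍ in atImInfty, eta N p τ = 0 := by
      filter_upwards [he] with τ hτ
      have hτ' : HasSum (fun _ : ℤ => (0 : ℂ)) (eta N p τ) := hτ.congr_fun fun n => by simp
      exact hτ'.unique hasSum_zero
    obtain ⟨A, hA⟩ := atImInfty_mem _ |>.mp hz
    set τ₀ : ℍ := ⟨((max A 0 + 1 : ℝ) : ℂ) * Complex.I, by
      simp; linarith [le_max_right A 0]⟩
    have hτ₀ : A < τ₀.im := by
      show A < (((max A 0 + 1 : ℝ) : ℂ) * Complex.I).im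
      simp
      linarith [le_max_left A 0]
    refine analyticOrderAt_ne_top (eta_mem_hol N p) hne τ₀ (analyticOrderAt_eq_top.mpr ?_)
    filter_upwards [(isOpen_lt continuous_const Complex.continuous_im).mem_nhds hτ₀,
      isOpen_upperHalfPlaneSet.mem_nhds τ₀.im_pos] with z hz1 hz2
    rw [Function.comp_apply, ofComplex_apply_of_im_pos hz2]
    exact hA ⟨z, hz2⟩ hz1.le

/-- The generator at `d = 1` is `j`. -/
theorem eta_jEl (τ : ℍ) : jd (oneD N).1 τ = jFun τ := by
  rw [jd]
  congr 1
  apply UpperHalfPlane.ext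
  rw [coe_scale]
  simp [oneD]

theorem eta_invariant (p : PN N) {g : SL(2, ℤ)} (hg : g ∈ Gamma0 N) (τ : ℍ) :
    eta N p (g • τ) = eta N p τ := by
  induction p using MvPolynomial.induction_on with
  | C c => simp [eta]
  | add p q hp hq => simp only [map_add, Pi.add_apply, hp, hq]
  | mul_X p d hp =>
    rw [map_mul, eta_X,
      Pi.mul_apply, Pi.mul_apply, hp, jd_invariant d.dvd hg]

/-- Cosets. -/
abbrev Cos : Type := SL(2, ℤ) ⧸ Gamma0 N

/-- Composition with `g`. -/
def pullHom (g : SL(2, ℤ)) : (ℍ → ℂ) →+* (ℍ → ℂ) where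
  toFun f := fun τ => f (g • τ)
  map_one' := rfl
  map_mul' _ _ := rfl
  map_zero' := rfl
  map_add' _ _ := rfl

/-- The conjugate function attached to a coset. -/
def fn (x : Cos N) : PN N →+* (ℍ → ℂ) := (pullHom x.out⁻¹).comp (eta N)

/-- The translate at the coset of `g`. -/
theorem fn_mk (g : SL(2, ℤ)) (p : PN N) (τ : ℍ) :
    fn N (QuotientGroup.mk g) p τ = eta N p (g⁻¹ • τ) := by
  obtain ⟨h, hh⟩ := QuotientGroup.mk_out_eq_mul (Gamma0 N) g
  show eta N p ((QuotientGroup.mk g : Cos N).out⁻¹ • τ) = _
  rw [hh, mul_inv_rev, mul_smul, eta_invariant N p (inv_mem h.2)]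

/-- Translating the argument permutes the cosets. -/
theorem fn_smul (g : SL(2, ℤ)) (x : Cos N) (p : PN N) (τ : ℍ) :
    fn N x p (g • τ) = fn N (g⁻¹ • x) p τ := by
  induction x using QuotientGroup.induction_on with
  | H a =>
    rw [MulAction.Quotient.smul_mk, fn_mk, fn_mk, smul_eq_mul, mul_inv_rev, inv_inv, mul_smul]

omit [NeZero N] in
theorem fn_X (x : Cos N) (d : Dvs N) :
    fn N x (MvPolynomial.X d) = fun τ => jd d.1 (x.out⁻¹ • τ) := by
  show pullHom x.out⁻¹ (eta N (MvPolynomial.X d)) = _
  rw [eta_X]
  rfl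

omit [NeZero N] in
/-- The translates of a constant. -/
theorem fn_C (x : Cos N) (c : Qb) :
    fn N x (MvPolynomial.C c) = algebraMap ℂ (ℍ → ℂ) (iotaC c) := by
  show pullHom x.out⁻¹ (eta N (MvPolynomial.C c)) = _
  rw [eta, MvPolynomial.eval₂Hom_C]
  rfl

theorem fn_mem (x : Cos N) (p : PN N) : fn N x p ∈ meroSubring N := by
  induction p using MvPolynomial.induction_on with
  | C c => rw [fn_C]; exact (meroSubring N).algebraMap_mem _
  | add p q hp hq => rw [map_add]; exact add_mem hp hq
  | mul_X p d hp =>
    rw [map_mul, fn_X]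
    exact mul_mem hp (jd_smul_cusp N d.dvd x.out⁻¹).choose_spec.choose_spec.2.2.1

/-- A translate vanishes exactly when the element does. -/
theorem fn_eq_zero_iff (x : Cos N) (p : PN N) : fn N x p = 0 ↔ ev N p = 0 := by
  rw [← eta_eq_zero_iff]
  constructor
  · intro h
    funext τ
    have := congrFun h (x.out • τ)
    simpa [fn, pullHom] using this
  · intro h
    show pullHom _ (eta N p) = 0
    rw [h, map_zero]

/-- Conjugate as a function meromorphic at `∞`. -/
def mero (x : Cos N) : PN N →+* meroSubring N := (fn N x).codRestrict (meroSubring N) (fn_mem N x)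

/-- The underlying function of `mero`. -/
theorem coe_mero (x : Cos N) (p : PN N) : (mero N x p : ℍ → ℂ) = fn N x p := rfl

/-- Conjugate as a holomorphic function. -/
def hol (x : Cos N) : PN N →+* holSubring :=
  (fn N x).codRestrict holSubring fun p => (fn_mem N x p).1

/-- The underlying function of `hol`. -/
theorem coe_hol (x : Cos N) (p : PN N) : (hol N x p : ℍ → ℂ) = fn N x p := rfl

/-- The conjugates of `j(q^N)` are distinct. -/
theorem fn_separates {x y : Cos N}
    (h : fn N x (MvPolynomial.X (topD N)) = fn N y (MvPolynomial.X (topD N))) : x = y := by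
  rw [fn_X, fn_X] at h
  rw [← QuotientGroup.out_eq' x, ← QuotientGroup.out_eq' y, QuotientGroup.eq]
  refine mem_gamma0_of_jd_smul_eq N fun τ => ?_
  have := congrFun h (y.out • τ)
  simp only [topD, inv_smul_smul] at this
  rw [mul_smul]
  exact this

end Fermat.Agent.ModCurveGenus
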