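import Fermat.Agent.ModCurveGenus.Data
import Fermat.Agent.FFPlaces.Global
import Mathlib.FieldTheory.PrimitiveElement

/-!
# The degree over `ℚ̄(j)`

`j` is transcendental and the degree of the function field of `X₀(N)` over `ℚ̄(j)` is at most
`[SL₂(ℤ) : Γ₀(N)]` (`finrank_le`).
-/

set_option autoImplicit false

noncomputable section

open UpperHalfPlane Filter Topology CongruenceSubgroup Polynomial IntermediateField
open scoped Manifold MatrixGroups
open Fermat.Agent.ModularFunctionField (jFun hasExp_jFun jFun_invariant mdiff_jFun HasExp)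
open ModularCurve (coeffEmb coeffMap)

namespace Fermat.Agent.ModCurveGenus

variable (N : ℕ) [NeZero N]

theorem eta_X_one : eta N (MvPolynomial.X (oneD N)) = jFun := by
  rw [eta_X]
  exact funext (eta_jEl N)

/-- Polynomials in `j` as polynomials in the generators. -/
def jPoly : Qb[X] →+* PN N :=
  Polynomial.eval₂RingHom MvPolynomial.C (MvPolynomial.X (oneD N))

/-- The image of a polynomial in the variable at `d = 1`. -/
theorem ev_jPoly (q : Qb[X]) : ev N (jPoly N q) = Polynomial.aeval (jEl N) q := by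
  induction q using Polynomial.induction_on' with
  | add a b ha hb => rw [map_add, map_add, map_add, ha, hb]
  | monomial n c => simp [jPoly, Polynomial.eval₂_monomial, Polynomial.aeval_monomial, ev, jEl]

/-- `eta` of a polynomial in the variable at `d = 1`. -/
theorem eta_jPoly (q : Qb[X]) (τ : ℍ) :
    eta N (jPoly N q) τ = (q.map iotaC).eval (jFun τ) := by
  induction q using Polynomial.induction_on' with
  | add a b ha hb => simp [map_add, ha, hb]
  | monomial n c =>
    have h1 : eta N (MvPolynomial.C c) = algebraMap ℂ (ℍ → ℂ) (iotaC c) := by simp [eta]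
    simp [jPoly, Polynomial.eval₂_monomial, eta_X_one, h1, Polynomial.eval_monomial]

/-- `j` is transcendental over `ℚ̄`. -/
theorem jEl_transcendental : Transcendental Qb (jEl N) := by
  rw [transcendental_iff]
  intro q hq
  rw [← ev_jPoly, ← eta_eq_zero_iff] at hq
  have hroots : ∀ a : ℂ, (q.map iotaC).IsRoot a := by
    intro a
    obtain ⟨τ, rfl⟩ := ModularFunctionField.jFun_surjective a
    rw [Polynomial.IsRoot.def, ← eta_jPoly N, hq]
    rfl
  have h0 := Polynomial.eq_zero_of_infinite_isRoot (q.map iotaC)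
    (Set.infinite_univ.mono fun a _ => hroots a)
  exact (Polynomial.map_eq_zero iotaC).mp h0

theorem hasExp_mero (f : meroSubring N) : HasExp N (f : ℍ → ℂ) (cuspExp f) := by
  have hb := f.2.isBdd (bound_spec f)
  have h := ((HasExp.single N (-(bound f : ℤ)) 1).mul
    (ModularFunctionField.hasExp_qExpansion (NeZero.ne N) hb.per hb.hol hb.bdd))
  refine h.congr fun τ => ?_
  rw [Pi.mul_apply, qN, zpow_neg, zpow_natCast]
  have := Function.Periodic.qParam_ne_zero (h := (N : ℝ)) (τ : ℂ)
  field_simp

instance : Finite (Cos N) := Nat.finite_of_card_ne_zero (by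
  exact (Subgroup.index_ne_zero_of_finite (H := Gamma0 N)))

instance : Fintype (Cos N) := Fintype.ofFinite _

/-- `∏ (X - f ∘ x)` over cosets. -/
def orbitPoly (p : PN N) : (ℍ → ℂ)[X] := ∏ x : Cos N, (X - C (fn N x p))

theorem orbitPoly_invariant (p : PN N) (g : SL(2, ℤ)) :
    (orbitPoly N p).map (pullHom g) = orbitPoly N p := by
  rw [orbitPoly, Polynomial.map_prod]
  refine Fintype.prod_equiv (MulAction.toPerm g⁻¹) _ _ fun x => ?_
  rw [Polynomial.map_sub, Polynomial.map_X, Polynomial.map_C, MulAction.toPerm_apply]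
  have : pullHom g (fn N x p) = fn N (g⁻¹ • x) p := funext fun τ => fn_smul N g x p τ
  rw [this]

theorem orbitPoly_coeff_mem (p : PN N) (i : ℕ) : (orbitPoly N p).coeff i ∈ meroSubring N := by
  have : orbitPoly N p = (∏ x : Cos N, (X - C (mero N x p))).map
      (meroSubring N).val.toRingHom := by
    rw [orbitPoly, Polynomial.map_prod]
    exact Finset.prod_congr rfl fun x _ => by simp [coe_mero]
  rw [this, Polynomial.coeff_map]
  exact (SetLike.coe_mem _)

theorem eval_orbitPoly (p : PN N) : (orbitPoly N p).eval (eta N p) = 0 := by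
  rw [orbitPoly, Polynomial.eval_prod]
  refine Finset.prod_eq_zero (Finset.mem_univ (QuotientGroup.mk 1)) ?_
  rw [Polynomial.eval_sub, Polynomial.eval_X, Polynomial.eval_C, sub_eq_zero]
  funext τ
  rw [fn_mk, inv_one, one_smul]

/-- A `ℚ̄`-linear retraction of `iotaC`. -/
theorem exists_retraction : ∃ π : ℂ →+ Qb, π 1 = 1 ∧ ∀ c a, π (c * iotaC a) = π c * a := by
  let : Algebra Qb ℂ := iotaC.toAlgebra
  obtain ⟨l, hl⟩ := (Algebra.linearMap Qb ℂ).exists_leftInverse_of_injective
    (LinearMap.ker_eq_bot.mpr iotaC_injective)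
  refine ⟨l.toAddMonoidHom, ?_, fun c a => ?_⟩
  · have := LinearMap.congr_fun hl 1
    simpa using this
  · have : c * iotaC a = a • c := by
      rw [Algebra.smul_def, mul_comm]; rfl
    show l (c * iotaC a) = l c * a
    rw [this, map_smul, smul_eq_mul, mul_comm]

/-- Every polynomial in the generators is integral over `ℚ̄[j]` of degree at most the index. -/
theorem exists_relation (p : PN N) : ∃ Q : Qb[X][X], Q.Monic ∧
    Q.natDegree ≤ Fintype.card (Cos N) ∧
      Q.eval₂ (Polynomial.aeval (jEl N)).toRingHom (ev N p) = 0 := by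
  set n := Fintype.card (Cos N) with hn
  have hdeg : (orbitPoly N p).natDegree = n := by
    rw [orbitPoly, Polynomial.natDegree_prod_of_monic _ _ fun x _ => Polynomial.monic_X_sub_C _]
    simp [hn]
  have hmon : (orbitPoly N p).Monic :=
    Polynomial.monic_prod_of_monic _ _ fun x _ => Polynomial.monic_X_sub_C _
  have hP : ∀ i, ∃ R : ℂ[X], ∀ τ, (orbitPoly N p).coeff i τ = R.eval (jFun τ) := by
    intro i
    have hm := orbitPoly_coeff_mem N p i
    obtain ⟨R, -, hR⟩ := ModularFunctionField.exists_polynomial_of_invariant (RingHom.id ℂ)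
      Function.injective_id (f := (orbitPoly N p).coeff i) (s := cuspExp ⟨_, hm⟩)
      (fun g τ => congrFun (((Polynomial.coeff_map (pullHom g) i).symm.trans
        (congrArg (fun q : (ℍ → ℂ)[X] => q.coeff i) (orbitPoly_invariant N p g)))) τ)
      hm.1 ((hasExp_mero N ⟨_, hm⟩).congr_series (by ext k; simp))
    exact ⟨R, fun τ => by simpa using hR τ⟩
  choose R hR using hP
  obtain ⟨π, hπ1, hπ⟩ := exists_retraction
  -- the relation as functions
  have hrel : ∀ τ : ℍ, eta N p τ ^ n
      + ∑ i ∈ Finset.range n, (R i).eval (jFun τ) * eta N p τ ^ i = 0 := by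
    intro τ
    have h := congrFun (eval_orbitPoly N p) τ
    rw [Polynomial.eval_eq_sum_range, hdeg, Finset.sum_range_succ] at h
    rw [show (orbitPoly N p).coeff n = 1 by rw [← hdeg]; exact hmon.coeff_natDegree] at h
    simp only [Pi.add_apply, Finset.sum_apply, Pi.mul_apply, Pi.pow_apply, one_mul, hR,
      Pi.zero_apply] at h
    linear_combination h
  -- as series
  set jC := ModularCurve.jqModC ℂ
  set s : LaurentSeries Qb := (ev N p : LaurentSeries Qb)
  set sC := coeffMap iotaC s with hsC
  have hexpR : ∀ r : ℂ[X], HasExp 1 (fun τ => r.eval (jFun τ)) (r.eval₂ HahnSeries.C jC) := by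
    intro r
    induction r using Polynomial.induction_on' with
    | add a b ha hb => simpa [Polynomial.eval₂_add] using ha.add hb
    | monomial k c =>
      simpa [Polynomial.eval₂_monomial] using (HasExp.const 1 c).mul (hasExp_jFun.pow k)
  have hexp : HasExp 1 (fun τ => eta N p τ ^ n
      + ∑ i ∈ Finset.range n, (R i).eval (jFun τ) * eta N p τ ^ i)
      (sC ^ n + ∑ i ∈ Finset.range n, (R i).eval₂ HahnSeries.C jC * sC ^ i) :=
    ((hasExp_eta N p).pow n).add
      (HasExp.sum _ fun i _ => (hexpR (R i)).mul ((hasExp_eta N p).pow i))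
  have hzero := hexp.eq_zero one_ne_zero (Eventually.of_forall hrel)
  -- apply the retraction coefficientwise
  let πS : LaurentSeries ℂ →+ LaurentSeries Qb :=
    { toFun := fun x => x.map π
      map_zero' := by ext k; simp
      map_add' := fun x y => by ext k; simp }
  have hπS : ∀ (c : ℂ) (x : LaurentSeries Qb),
      πS (HahnSeries.C c * coeffMap iotaC x) = HahnSeries.C (π c) * x := by
    intro c x
    ext k
    show π ((HahnSeries.C c * coeffMap iotaC x).coeff k) = _
    rw [HahnSeries.C_mul_eq_smul, HahnSeries.C_mul_eq_smul, HahnSeries.coeff_smul,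
      HahnSeries.coeff_smul, smul_eq_mul, smul_eq_mul, ModularCurve.coeffMap_coeff, hπ]
  have hjC : jC = coeffMap iotaC (jEl N : LaurentSeries Qb) := by
    show _ = coeffMap iotaC (genS N (oneD N))
    rw [coeffMap_genS]
    exact (ModularCurve.qExpand_one_apply _).symm
  let g : ℂ[X] → Qb[X] := fun r => r.sum fun k c => Polynomial.monomial k (π c)
  have hg : ∀ (r : ℂ[X]) (i : ℕ), πS (r.eval₂ HahnSeries.C jC * sC ^ i)
      = ((Polynomial.aeval (jEl N) (g r) * ev N p ^ i : FN N) : LaurentSeries Qb) := by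
    intro r i
    rw [Polynomial.eval₂_eq_sum, Polynomial.sum_def, Finset.sum_mul, map_sum]
    simp only [g, Polynomial.sum_def, map_sum, Finset.sum_mul]
    rw [AddSubmonoidClass.coe_finsetSum]
    refine Finset.sum_congr rfl fun k _ => ?_
    rw [mul_assoc, hjC, hsC, ← map_pow, ← map_pow, ← map_mul, hπS, Polynomial.aeval_monomial,
      MulMemClass.coe_mul, MulMemClass.coe_mul, SubmonoidClass.coe_pow, SubmonoidClass.coe_pow,
      IntermediateField.coe_algebraMap_apply, ModularCurve.algebraMap_laurentSeries_eq_single,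
      mul_assoc]
    rfl
  refine ⟨X ^ n + ∑ i ∈ Finset.range n, C (g (R i)) * X ^ i, ?_, ?_, ?_⟩
  · refine Polynomial.monic_X_pow_add ?_
    exact (Polynomial.degree_sum_le _ _).trans_lt ((Finset.sup_lt_iff (WithBot.bot_lt_coe n)).mpr
      fun i hi => (Polynomial.degree_C_mul_X_pow_le _ _).trans_lt
        (WithBot.coe_lt_coe.mpr (Finset.mem_range.mp hi)))
  · refine (Polynomial.natDegree_add_le _ _).trans (max_le (Polynomial.natDegree_X_pow_le _) ?_)
    exact Polynomial.natDegree_sum_le_of_forall_le _ _ fun i hi =>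
      (Polynomial.natDegree_C_mul_X_pow_le _ _).trans (Finset.mem_range.mp hi).le
  · apply Subtype.ext
    have h := congrArg πS hzero
    rw [map_add, map_sum, map_zero, Finset.sum_congr rfl fun i _ => hg (R i) i,
      ← one_mul (sC ^ n), ← map_one (HahnSeries.C (R := ℂ)), hsC, ← map_pow, hπS, hπ1, map_one,
      one_mul] at h
    rw [Polynomial.eval₂_add, Polynomial.eval₂_X_pow, Polynomial.eval₂_finsetSum,
      ZeroMemClass.coe_zero, AddMemClass.coe_add, AddSubmonoidClass.coe_finsetSum,
      SubmonoidClass.coe_pow]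
    simp only [Polynomial.eval₂_mul, Polynomial.eval₂_C, Polynomial.eval₂_X_pow]
    exact h

/-- The relation over the rational function field. -/
theorem exists_relation_field (p : PN N) : ∃ Q : Qb⟮jEl N⟯[X], Q.Monic ∧
    Q.natDegree ≤ Fintype.card (Cos N) ∧ Polynomial.aeval (ev N p) Q = 0 := by
  obtain ⟨Q, hm, hd, hQ⟩ := exists_relation N p
  let := FFPlaces.genAlgebra (K := Qb) (jEl N)
  let := FFPlaces.genAlgebraField (K := Qb) (jEl N)
  have := FFPlaces.genAlgebra_tower (K := Qb) (jEl N)
  refine ⟨Q.map (algebraMap Qb[X] Qb⟮jEl N⟯), hm.map _, Polynomial.natDegree_map_le.trans hd, ?_⟩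
  rw [Polynomial.aeval_map_algebraMap, Polynomial.aeval_def]
  exact hQ

/-- The function field is finite over `Q(j)`. -/
theorem finiteDimensional_FN : FiniteDimensional Qb⟮jEl N⟯ (FN N) := by
  set M : IntermediateField Qb⟮jEl N⟯ (FN N) :=
    IntermediateField.adjoin Qb⟮jEl N⟯ (Set.range (gen N))
  have hint : ∀ d, IsIntegral Qb⟮jEl N⟯ (gen N d) := fun d => by
    obtain ⟨Q, hm, -, hQ⟩ := exists_relation_field N (MvPolynomial.X d)
    exact ⟨Q, hm, by simpa [ev, Polynomial.aeval_def] using hQ⟩
  have : FiniteDimensional Qb⟮jEl N⟯ M :=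
    IntermediateField.finiteDimensional_adjoin fun x ⟨d, hd⟩ => hd ▸ hint d
  have hev : ∀ p : PN N, ev N p ∈ M := by
    intro p
    induction p using MvPolynomial.induction_on with
    | C c =>
      rw [ev, MvPolynomial.aeval_C,
        IsScalarTower.algebraMap_apply Qb Qb⟮jEl N⟯ (FN N)]
      exact M.algebraMap_mem _
    | add p q hp hq => rw [map_add]; exact add_mem hp hq
    | mul_X p d hp =>
      rw [map_mul, show ev N (MvPolynomial.X d) = gen N d from MvPolynomial.aeval_X _ d]
      exact mul_mem hp (IntermediateField.subset_adjoin _ _ ⟨d, rfl⟩)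
  have htop : M = ⊤ := by
    refine eq_top_iff.mpr fun f _ => ?_
    obtain ⟨r, s, -, rfl⟩ := exists_frac N f
    exact div_mem (hev r) (hev s)
  exact FiniteDimensional.of_surjective (M.val.toLinearMap) fun x => ⟨⟨x, htop ▸ trivial⟩, rfl⟩

/-- The function field is finite over `ℚ̄(t)` for every transcendental `t`. -/
theorem finiteOverGen_FN : FFPlaces.FiniteOverGen Qb (FN N) :=
  have := finiteDimensional_FN N
  FFPlaces.FiniteOverGen.of_finiteDimensional (jEl_transcendental N)

/-- Every element is a polynomial in the generators divided by a polynomial in `j`. -/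
theorem exists_clearing (f : FN N) : ∃ D : Qb[X], D ≠ 0 ∧ ∃ p : PN N,
    Polynomial.aeval (jEl N) D * f = ev N p := by
  obtain ⟨r, s, hs, rfl⟩ := exists_frac N f
  obtain ⟨Q, hm, -, hQ⟩ := exists_relation N s
  let := FFPlaces.genAlgebra (K := Qb) (jEl N)
  have hint : IsIntegral Qb[X] (ev N s) := ⟨Q, hm, hQ⟩
  set μ := minpoly Qb[X] (ev N s)
  have hc : μ.coeff 0 ≠ 0 := by
    intro h0
    have hx : μ = Polynomial.X * μ.divX := by
      conv_lhs => rw [← Polynomial.X_mul_divX_add μ, h0, map_zero, add_zero]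
    rcases (minpoly.irreducible hint).isUnit_or_isUnit hx with hu | hu
    · exact Polynomial.not_isUnit_X hu
    · obtain ⟨c, hcu, hc⟩ := Polynomial.isUnit_iff.mp hu
      have hdm : μ.divX.Monic := (Polynomial.monic_X).of_mul_monic_left (hx ▸ minpoly.monic hint)
      have h1 : μ.divX = 1 := by
        refine Polynomial.eq_one_of_monic_natDegree_zero hdm ?_
        rw [← hc]; exact Polynomial.natDegree_C c
      have : Polynomial.aeval (R := Qb[X]) (ev N s) μ = 0 := minpoly.aeval Qb[X] (ev N s)
      rw [hx, h1, mul_one, Polynomial.aeval_X] at this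
      exact hs this
  set w : PN N := ∑ i ∈ Finset.range (μ.divX.natDegree + 1), jPoly N (μ.divX.coeff i) * s ^ i
  have hw : ev N w = Polynomial.aeval (ev N s) μ.divX := by
    rw [Polynomial.aeval_eq_sum_range, map_sum]
    refine Finset.sum_congr rfl fun i _ => ?_
    rw [map_mul, map_pow, ev_jPoly, Algebra.smul_def]
    rfl
  have key : ev N s * ev N w + Polynomial.aeval (jEl N) (μ.coeff 0) = 0 := by
    have := congrArg (Polynomial.aeval (R := Qb[X]) (ev N s)) (Polynomial.X_mul_divX_add μ)
    rw [map_add, map_mul, Polynomial.aeval_X, Polynomial.aeval_C, minpoly.aeval, ← hw] at this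
    exact this
  refine ⟨μ.coeff 0, hc, -(r * w), ?_⟩
  rw [map_neg, map_mul]
  field_simp
  linear_combination (ev N r) * key

/-- `[F_N : ℚ̄(j)] ≤ [SL₂(ℤ) : Γ₀(N)]`. -/
theorem finrank_le : Module.finrank Qb⟮jEl N⟯ (FN N) ≤ Fintype.card (Cos N) := by
  have := finiteDimensional_FN N
  have := FFPlaces.charZero_adjoin (K := Qb) (jEl N)
  obtain ⟨θ, hθ⟩ := Field.exists_primitive_element Qb⟮jEl N⟯ (FN N)
  obtain ⟨D, hD, p, hp⟩ := exists_clearing N θ
  have hD0 : Polynomial.aeval (jEl N) D ≠ 0 := fun h =>
    hD ((transcendental_iff.mp (jEl_transcendental N)) D h)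
  set c : Qb⟮jEl N⟯ := Polynomial.aeval (AdjoinSimple.gen Qb (jEl N)) D
  have hc : algebraMap Qb⟮jEl N⟯ (FN N) c = Polynomial.aeval (jEl N) D := by
    rw [← Polynomial.aeval_algebraMap_apply, AdjoinSimple.algebraMap_gen]
  have htop : Qb⟮jEl N⟯⟮ev N p⟯ = ⊤ := by
    rw [eq_top_iff, ← hθ, adjoin_simple_le_iff]
    have hθ' : θ = ev N p / algebraMap Qb⟮jEl N⟯ (FN N) c := by
      rw [hc, ← hp, mul_div_cancel_left₀ _ hD0]
    rw [hθ']
    exact div_mem (mem_adjoin_simple_self _ _) (IntermediateField.algebraMap_mem _ _)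
  obtain ⟨Q, hm, hd, hQ⟩ := exists_relation_field N p
  rw [← IntermediateField.finrank_top', ← htop,
    IntermediateField.adjoin.finrank (Algebra.IsIntegral.isIntegral (ev N p))]
  exact (Polynomial.natDegree_le_of_dvd (minpoly.dvd _ _ hQ) hm.ne_zero).trans hd

end Fermat.Agent.ModCurveGenus
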